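/-
T2-G, concrete part (helper4), file 2: **the action of inertia at the DVR levels**.
`𝔓` a place of `ℚ̄`, `H ≤ 𝔓.I` a NORMAL subgroup, `σ ∈ 𝔓.I`.  Then `σ` restricts to an automorphism
`t2gsL` of `L_H = tbFix 𝔓 H` preserving the valuation ring `tbFixO 𝔓 H` and inducing the identity on
the residue field; coefficientwise it gives the ring automorphism `t2gsF` of
`F_H = tbLevF 𝔓 N H`, compatible with `tbPhiF`, preserving the Gauss ring and its residue map,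
commuting with the Atkin–Lehner involution `t2wLev`, and preserving integrality over `L_H[x]` for
`x` fixed by `σ`.
-/
import Mathlib
import Fermat.Agent.Lib.T2.AL.Level
import Fermat.Agent.Lib.T1.Inst.LevelUp

set_option autoImplicit false
set_option linter.unusedSectionVars false
set_option linter.style.haveILetI false

namespace Fermat.Agent.T2

open Fermat.Agent.T1 Fermat.Agent.TW Fermat.Agent.S05Lib ModularCurve HahnSeries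

local notation "Qb" => AlgebraicClosure ℚ
local notation "GQ" => (AlgebraicClosure ℚ ≃ₐ[ℚ] AlgebraicClosure ℚ)

noncomputable section

variable (𝔓 : FFPlace) (H : Subgroup 𝔓.I) [hH : H.Normal] (σ : 𝔓.I)

/-! ### The action on `L_H` -/

/-- the fixed field of a normal subgroup of inertia is stable under inertia -/
theorem t2gs_mem_tbFix {z : Qb} (hz : z ∈ tbFix 𝔓 H) : ((σ : 𝔓.I) : GQ) z ∈ tbFix 𝔓 H := by
  rw [mem_tbFix] at hz ⊢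
  intro h hh
  have h1 : σ⁻¹ * h * σ ∈ H := by
    have := hH.conj_mem h hh σ⁻¹
    rwa [inv_inv] at this
  have h2 := hz _ h1
  have h3 : ((σ⁻¹ * h * σ : 𝔓.I) : GQ) z
      = ((σ : 𝔓.I) : GQ)⁻¹ (((h : 𝔓.I) : GQ) (((σ : 𝔓.I) : GQ) z)) := rfl
  rw [h3] at h2
  have h4 := congrArg (((σ : 𝔓.I) : GQ)) h2
  rw [show ((σ : 𝔓.I) : GQ) ((((σ : 𝔓.I) : GQ)⁻¹) (((h : 𝔓.I) : GQ) (((σ : 𝔓.I) : GQ) z)))
      = ((h : 𝔓.I) : GQ) (((σ : 𝔓.I) : GQ) z) from AlgEquiv.apply_symm_apply _ _] at h4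
  exact h4

/-- the restriction of `σ` to `L_H`, as an algebra homomorphism -/
def t2gsHom : ↥(tbFix 𝔓 H) →ₐ[ℚ] ↥(tbFix 𝔓 H) :=
  ((((σ : 𝔓.I) : GQ) : Qb →ₐ[ℚ] Qb).comp (tbFix 𝔓 H).val).codRestrict (tbFix 𝔓 H).toSubalgebra
    (fun z => t2gs_mem_tbFix 𝔓 H σ z.2)

theorem coe_t2gsHom (c : ↥(tbFix 𝔓 H)) :
    ((t2gsHom 𝔓 H σ c : ↥(tbFix 𝔓 H)) : Qb) = ((σ : 𝔓.I) : GQ) (c : Qb) := rfl

/-- **the restriction of `σ` to `L_H`** -/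
def t2gsL : ↥(tbFix 𝔓 H) ≃ₐ[ℚ] ↥(tbFix 𝔓 H) :=
  AlgEquiv.ofAlgHom (t2gsHom 𝔓 H σ) (t2gsHom 𝔓 H σ⁻¹)
    (AlgHom.ext fun c => Subtype.ext (by
      show ((σ : 𝔓.I) : GQ) ((((σ⁻¹ : 𝔓.I) : 𝔓.I) : GQ) (c : Qb)) = (c : Qb)
      exact AlgEquiv.apply_symm_apply _ _))
    (AlgHom.ext fun c => Subtype.ext (by
      show (((σ⁻¹ : 𝔓.I) : 𝔓.I) : GQ) (((σ : 𝔓.I) : GQ) (c : Qb)) = (c : Qb)
      exact AlgEquiv.symm_apply_apply _ _))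

@[simp] theorem coe_t2gsL (c : ↥(tbFix 𝔓 H)) :
    ((t2gsL 𝔓 H σ c : ↥(tbFix 𝔓 H)) : Qb) = ((σ : 𝔓.I) : GQ) (c : Qb) := rfl

theorem t2gsL_symm : (t2gsL 𝔓 H σ).symm = t2gsL 𝔓 H σ⁻¹ := by
  ext c
  rfl

theorem t2gsL_symm_apply (c : ↥(tbFix 𝔓 H)) : (t2gsL 𝔓 H σ).symm c = t2gsL 𝔓 H σ⁻¹ c := rfl

/-- `σ` preserves the valuation -/
theorem t2gs_ord (z : Qb) : 𝔓.v.ord (((σ : 𝔓.I) : GQ) z) = 𝔓.v.ord z :=
  𝔓.ord_D (𝔓.I_le_D σ.2) z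

/-- `σ` preserves the valuation ring of `L_H` -/
theorem t2gsL_mem_tbFixO {c : ↥(tbFix 𝔓 H)} (hc : c ∈ tbFixO 𝔓 H) :
    t2gsL 𝔓 H σ c ∈ tbFixO 𝔓 H := by
  rw [mem_tbFixO] at hc ⊢
  rcases hc with h0 | h0
  · left
    rw [coe_t2gsL, h0, map_zero]
  · right
    rw [coe_t2gsL, t2gs_ord]
    exact h0

/-- `σ c / c` is a unit of the valuation ring -/
theorem t2gsL_div_mem (c : ↥(tbFix 𝔓 H)) (hc : c ≠ 0) : t2gsL 𝔓 H σ c / c ∈ tbFixO 𝔓 H := by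
  rw [mem_tbFixO]
  have hc0 : (c : Qb) ≠ 0 := fun h => hc (Subtype.ext h)
  have hσc0 : ((σ : 𝔓.I) : GQ) (c : Qb) ≠ 0 := (map_ne_zero _).mpr hc0
  have h1 := (QVal.is_ord (v := 𝔓.v) hσc0).div (QVal.is_ord (v := 𝔓.v) hc0)
  rw [t2gs_ord, sub_self] at h1
  exact h1.ge

/-- the restriction of `σ` to the valuation ring `O_H` -/
def t2gsO : ↥(tbFixO 𝔓 H) →+* ↥(tbFixO 𝔓 H) :=
  (((t2gsL 𝔓 H σ : ↥(tbFix 𝔓 H) ≃ₐ[ℚ] ↥(tbFix 𝔓 H)) : ↥(tbFix 𝔓 H) →+* ↥(tbFix 𝔓 H)).comp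
    (tbFixO 𝔓 H).subtype).codRestrict (tbFixO 𝔓 H).toSubring
    (fun a => t2gsL_mem_tbFixO 𝔓 H σ a.2)

theorem coe_t2gsO (a : ↥(tbFixO 𝔓 H)) :
    ((t2gsO 𝔓 H σ a : ↥(tbFixO 𝔓 H)) : ↥(tbFix 𝔓 H)) = t2gsL 𝔓 H σ (a : ↥(tbFix 𝔓 H)) := rfl

/-- **inertia acts trivially on the residue field** -/
theorem tbFixRes_t2gsO (a : ↥(tbFixO 𝔓 H)) :
    tbFixRes 𝔓 H (t2gsO 𝔓 H σ a) = tbFixRes 𝔓 H a := by
  show IsLocalRing.residue ↥𝔓.P (tbFixIncl 𝔓 H (t2gsO 𝔓 H σ a))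
    = IsLocalRing.residue ↥𝔓.P (tbFixIncl 𝔓 H a)
  rw [← sub_eq_zero, ← map_sub, IsLocalRing.residue_eq_zero_iff, IsLocalRing.mem_maximalIdeal,
    mem_nonunits_iff]
  have haP : (((a : ↥(tbFix 𝔓 H)) : Qb)) ∈ 𝔓.P := (tbFixIncl 𝔓 H a).2
  obtain ⟨-, hlt⟩ := qv_mem_inertiaSubgroupIn 𝔓.P σ.2
  have h1 := hlt _ haP
  intro hu
  have h2 : 𝔓.P.valuation (((tbFixIncl 𝔓 H (t2gsO 𝔓 H σ a) - tbFixIncl 𝔓 H a : ↥𝔓.P)) : Qb) = 1 :=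
    (ValuationSubring.valuation_eq_one_iff 𝔓.P _).mp hu
  have h3 : (((tbFixIncl 𝔓 H (t2gsO 𝔓 H σ a) - tbFixIncl 𝔓 H a : ↥𝔓.P)) : Qb)
      = ((σ : 𝔓.I) : GQ) ((a : ↥(tbFix 𝔓 H)) : Qb) - ((a : ↥(tbFix 𝔓 H)) : Qb) := rfl
  rw [h3] at h2
  rw [h2] at h1
  exact lt_irrefl _ h1

/-! ### The action on `F_H` -/

variable (N : ℕ) [NeZero N]

/-- **the coefficientwise action of `σ` on `F_H`** -/
def t2gsF : ↥(tbLevF 𝔓 N H) ≃+* ↥(tbLevF 𝔓 N H) :=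
  arithmeticRingAut (modularFunctionFieldFull N) (t2gsL 𝔓 H σ)

theorem coe_t2gsF (f : ↥(tbLevF 𝔓 N H)) :
    ((t2gsF 𝔓 H σ N f : ↥(tbLevF 𝔓 N H)) : LaurentSeries ↥(tbFix 𝔓 H))
      = coeffMap ((t2gsL 𝔓 H σ : ↥(tbFix 𝔓 H) ≃ₐ[ℚ] ↥(tbFix 𝔓 H)) :
          ↥(tbFix 𝔓 H) →+* ↥(tbFix 𝔓 H)) (f : LaurentSeries ↥(tbFix 𝔓 H)) := rfl

theorem t2gsF_symm_apply (f : ↥(tbLevF 𝔓 N H)) :
    (t2gsF 𝔓 H σ N).symm f = t2gsF 𝔓 H σ⁻¹ N f := rfl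

theorem t2gsF_algebraMap (c : ↥(tbFix 𝔓 H)) :
    t2gsF 𝔓 H σ N (algebraMap ↥(tbFix 𝔓 H) ↥(tbLevF 𝔓 N H) c)
      = algebraMap ↥(tbFix 𝔓 H) ↥(tbLevF 𝔓 N H) (t2gsL 𝔓 H σ c) :=
  arithmeticRingAut_algebraMap (modularFunctionFieldFull N) (t2gsL 𝔓 H σ) c

/-- compatibility with the action over `ℚ̄` -/
theorem tbPhiF_t2gsF (f : ↥(tbLevF 𝔓 N H)) :
    tbPhiF 𝔓 N H (t2gsF 𝔓 H σ N f)
      = arithmeticRingAut (modularFunctionFieldFull N) ((σ : 𝔓.I) : GQ) (tbPhiF 𝔓 N H f) := by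
  apply Subtype.ext
  rw [coe_arithmeticRingAut_apply, coe_tbPhiF, coe_tbPhiF, coe_t2gsF, coeffMap_coeffMap,
    coeffMap_coeffMap]
  exact coeffMap_congr (RingHom.ext fun a => rfl) _

/-- `σ` preserves the Gauss ring of `F_H` -/
theorem t2gsF_gauss {f : LaurentSeries ↥(tbFix 𝔓 H)}
    (hf : TbGauss (tbFixO 𝔓 H) (tbFixRes 𝔓 H) f) :
    TbGauss (tbFixO 𝔓 H) (tbFixRes 𝔓 H)
      (coeffMap ((t2gsL 𝔓 H σ : ↥(tbFix 𝔓 H) ≃ₐ[ℚ] ↥(tbFix 𝔓 H)) :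
          ↥(tbFix 𝔓 H) →+* ↥(tbFix 𝔓 H)) f) :=
  TbGauss.map (tbFixO 𝔓 H) (tbFixRes 𝔓 H) (tbFixO 𝔓 H) (tbFixRes 𝔓 H) _ (t2gsO 𝔓 H σ)
    (fun _ => rfl) (tbFixRes_t2gsO 𝔓 H σ) hf

/-- `σ` commutes with the residue map of the Gauss ring -/
theorem t2gsF_rho {f : LaurentSeries ↥(tbFix 𝔓 H)}
    (hf : TbGauss (tbFixO 𝔓 H) (tbFixRes 𝔓 H) f) :
    tbRhoFun (tbFixO 𝔓 H) (tbFixRes 𝔓 H)
      (coeffMap ((t2gsL 𝔓 H σ : ↥(tbFix 𝔓 H) ≃ₐ[ℚ] ↥(tbFix 𝔓 H)) :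
          ↥(tbFix 𝔓 H) →+* ↥(tbFix 𝔓 H)) f)
      = tbRhoFun (tbFixO 𝔓 H) (tbFixRes 𝔓 H) f :=
  tbRhoFun_map (tbFixO 𝔓 H) (tbFixRes 𝔓 H) (tbFixO 𝔓 H) (tbFixRes 𝔓 H) _ (t2gsO 𝔓 H σ)
    (fun _ => rfl) (tbFixRes_t2gsO 𝔓 H σ) hf

/-- a semilinear ring endomorphism fixing `x` preserves integrality over `L[x]` -/
theorem t2gs_isIntegral_of_semilinear {L F : Type*} [Field L] [Field F] [Algebra L F]
    (τ : F →+* F) (τL : L →+* L) (hτL : ∀ c : L, τ (algebraMap L F c) = algebraMap L F (τL c))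
    {x f : F} (hx : τ x = x) (hf : IsIntegral ↥(Algebra.adjoin L {x}) f) :
    IsIntegral ↥(Algebra.adjoin L {x}) (τ f) := by
  have hmem' : ∀ s : F, s ∈ Algebra.adjoin L {x} → τ s ∈ Algebra.adjoin L {x} := by
    intro s hs
    induction hs using Algebra.adjoin_induction with
    | mem y hy =>
      have hy' : y = x := hy
      rw [hy', hx]
      exact Algebra.self_mem_adjoin_singleton L x
    | algebraMap c =>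
      rw [hτL]
      exact Subalgebra.algebraMap_mem _ _
    | add a b _ _ ha hb =>
      rw [map_add]
      exact Subalgebra.add_mem _ ha hb
    | mul a b _ _ ha hb =>
      rw [map_mul]
      exact Subalgebra.mul_mem _ ha hb
  have hmem : ∀ s : ↥(Algebra.adjoin L {x}), τ (s : F) ∈ Algebra.adjoin L {x} :=
    fun s => hmem' s s.2
  set φ : ↥(Algebra.adjoin L {x}) →+* ↥(Algebra.adjoin L {x}) :=
    (τ.comp (Algebra.adjoin L {x}).val.toRingHom).codRestrict (Algebra.adjoin L {x}) hmem with hφ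
  refine IsIntegral.map_of_comp_eq φ τ ?_ hf
  ext s
  rfl

/-- `σ` preserves integrality over `L_H[x]` when `σ x = x` -/
theorem t2gsF_isIntegral {x f : ↥(tbLevF 𝔓 N H)} (hx : t2gsF 𝔓 H σ N x = x)
    (hf : IsIntegral ↥(Algebra.adjoin ↥(tbFix 𝔓 H) {x}) f) :
    IsIntegral ↥(Algebra.adjoin ↥(tbFix 𝔓 H) {x}) (t2gsF 𝔓 H σ N f) :=
  t2gs_isIntegral_of_semilinear
    ((t2gsF 𝔓 H σ N : ↥(tbLevF 𝔓 N H) ≃+* ↥(tbLevF 𝔓 N H)) : ↥(tbLevF 𝔓 N H) →+* ↥(tbLevF 𝔓 N H))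
    ((t2gsL 𝔓 H σ : ↥(tbFix 𝔓 H) ≃ₐ[ℚ] ↥(tbFix 𝔓 H)) : ↥(tbFix 𝔓 H) →+* ↥(tbFix 𝔓 H))
    (t2gsF_algebraMap 𝔓 H σ N) hx hf

/-- the ℚ-rational generators are fixed -/
theorem t2gsF_jd (d : ℕ) (hd : d ∣ N) :
    t2gsF 𝔓 H σ N (t2wJd ↥(tbFix 𝔓 H) N d hd) = t2wJd ↥(tbFix 𝔓 H) N d hd :=
  t2w_arith_jd ↥(tbFix 𝔓 H) N (t2gsL 𝔓 H σ) d hd

omit hH in
/-- **choice of the level**: finitely many functions over `ℚ̄` come from a level `H` which is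
normal of finite index in the inertia group (and contained in a given subgroup of finite index) -/
theorem t2gs_exists_level (H₁ : Subgroup 𝔓.I) [H₁.FiniteIndex]
    (T : Finset ↥(modularFunctionFieldBar N)) :
    ∃ H : Subgroup 𝔓.I, H.FiniteIndex ∧ H.Normal ∧ H ≤ H₁ ∧
      ∀ y ∈ T, ∃ f : ↥(tbLevF 𝔓 N H), tbPhiF 𝔓 N H f = y := by
  classical
  obtain ⟨H₀, hH₀, -, hT⟩ := tbd_exists_level (modularFunctionFieldFull N) 𝔓 T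
    (fun y => ((y : ↥(modularFunctionFieldBar N)) : LaurentSeries Qb)) (fun y _ => y.2) ∅
  haveI := hH₀
  haveI : (H₀ ⊓ H₁).FiniteIndex := inferInstance
  refine ⟨(H₀ ⊓ H₁).normalCore, inferInstance, Subgroup.normalCore_normal _,
    (Subgroup.normalCore_le _).trans inf_le_right, fun y hy => ?_⟩
  obtain ⟨f, hf, hfy⟩ := hT y hy
  apply t2w_exists_tbPhiF_eq
  intro τ hτ
  have hτ₀ : τ ∈ H₀ := ((Subgroup.normalCore_le _).trans inf_le_left) hτ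
  have h1 := t2w_arith_tbPhiF 𝔓 N H₀ τ hτ₀ ⟨f, hf⟩
  have h2 : tbPhiF 𝔓 N H₀ ⟨f, hf⟩ = y := Subtype.ext hfy
  rw [h2] at h1
  exact h1

section AL

open Fermat.Agent.S24Lib

variable (N' q : ℕ) [NeZero N'] [hq : Fact q.Prime] (h : ¬ q ∣ N')

/-- **`σ` commutes with the Atkin–Lehner involution at level `H`** -/
theorem t2gsF_t2wLev (f : ↥(tbLevF 𝔓 (N' * q) H)) :
    t2wLev 𝔓 H N' q h (t2gsF 𝔓 H σ (N' * q) f)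
      = t2gsF 𝔓 H σ (N' * q) (t2wLev 𝔓 H N' q h f) := by
  apply tbPhiF_injective 𝔓 (N' * q) H
  rw [tbPhiF_t2wLev, tbPhiF_t2gsF, tbPhiF_t2gsF, tbPhiF_t2wLev, t2w_comm]

end AL

end

end Fermat.Agent.T2
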