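/-
T2-G, concrete part (helper4), file 1: **reduction of `T2zUnip` to the good levels**.
`T2gUnipAt N m σ` is the T2-G statement at one level `N`, exponent `m` and one automorphism `σ`;
it descends from the level `N e` to the level `N` (pull-back of `tWsub` + (K2), the iterated level
lowering of roots `tkr_root_descend_mul`, + divisibility of the order at the cusp `0`).  Hence
`T2zUnip` follows from the statement at the levels `q N'`, `q ∤ N'`, `4 ∣ N'` or `9 ∣ N'`
(`T2gGood`).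
-/
import Mathlib
import Fermat.Agent.Lib.T1.Kron.K12
import Fermat.Agent.Lib.T2.Asm.Final

set_option autoImplicit false
set_option linter.unusedSectionVars false
set_option linter.style.haveILetI false

namespace Fermat.Agent.T2

open ModularCurve HahnSeries AlgebraicCurve Fermat.Agent.T1
open ModularGroup (S T)

local notation "Kbar" => AlgebraicClosure ℚ
local notation "GQ" => (AlgebraicClosure ℚ ≃ₐ[ℚ] AlgebraicClosure ℚ)

/-- the T2-G statement at the level `N`, for the exponent `m` and the automorphism `σ`: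
`(σ - 1)² = 0` on `tWsub ℚ̄ N m` modulo `m`-th powers -/
def T2gUnipAt (N m : ℕ) [NeZero N] (σ : GQ) : Prop :=
  ∀ y : (↥(modularFunctionFieldBar N))ˣ, y ∈ tWsub Kbar N m →
    ∃ t : (↥(modularFunctionFieldBar N))ˣ,
      tkrSig N σ (tkrSig N σ y) * y = tkrSig N σ y ^ 2 * t ^ m

/-- **descent of the level**: the statement at the level `N e` implies the statement at the
level `N` -/
theorem t2gl_unipAt_of_mul (N e : ℕ) [NeZero N] [NeZero e] {m : ℕ} (hm : m ≠ 0) (σ : GQ)
    (h : T2gUnipAt (N * e) m σ) : T2gUnipAt N m σ := by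
  intro y hy
  set α : (↥(modularFunctionFieldBar N))ˣ →* (↥(modularFunctionFieldBar (N * e)))ˣ :=
    Units.map ((heckeAlphaBar Kbar N e : ↥(modularFunctionFieldBar N) →+*
      ↥(modularFunctionFieldBar (N * e))) : ↥(modularFunctionFieldBar N) →*
      ↥(modularFunctionFieldBar (N * e))) with hα
  have hαcoe : ∀ z : (↥(modularFunctionFieldBar N))ˣ,
      (((α z : (↥(modularFunctionFieldBar (N * e)))ˣ) : ↥(modularFunctionFieldBar (N * e))) :
        LaurentSeries Kbar) = ((z : ↥(modularFunctionFieldBar N)) : LaurentSeries Kbar) :=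
    fun z => coe_heckeAlphaBar _ _ _
  obtain ⟨ts, hts⟩ := h (α y) (tkr_pull_tWsub N e m hy)
  -- the quotient `u = σ²y · y / (σ y)²`
  set u : (↥(modularFunctionFieldBar N))ˣ :=
    tkrSig N σ (tkrSig N σ y) * y * (tkrSig N σ y ^ 2)⁻¹ with hu
  have huW : u ∈ tWsub Kbar N m :=
    (tWsub Kbar N m).mul_mem ((tWsub Kbar N m).mul_mem
      (tkrSig_mem_tWsub N m σ (tkrSig_mem_tWsub N m σ hy)) hy)
      ((tWsub Kbar N m).inv_mem ((tWsub Kbar N m).pow_mem (tkrSig_mem_tWsub N m σ hy) 2))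
  -- `σ` commutes with the change of level
  have hσα : ∀ z : (↥(modularFunctionFieldBar N))ˣ, tkrSig (N * e) σ (α z) = α (tkrSig N σ z) := by
    intro z
    apply Units.ext
    apply Subtype.ext
    rw [tkrSig_coe, hαcoe, hαcoe, tkrSig_coe]
  have hαu : α u = ts ^ m := by
    rw [hu, map_mul, map_mul, map_inv, map_pow, ← hσα, ← hσα, hts]
    exact mul_inv_cancel_comm _ _
  have hcoe : ((ts : ↥(modularFunctionFieldBar (N * e))) : LaurentSeries Kbar) ^ m
      = ((u : ↥(modularFunctionFieldBar N)) : LaurentSeries Kbar) := by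
    rw [← hαcoe u, hαu, Units.val_pow_eq_pow_val, SubmonoidClass.coe_pow]
  have hgN : ((ts : ↥(modularFunctionFieldBar (N * e))) : LaurentSeries Kbar)
      ∈ modularFunctionFieldBar N :=
    tkr_root_descend_mul hm e (NeZero.ne e) N (u : ↥(modularFunctionFieldBar N)).2
      (ts : ↥(modularFunctionFieldBar (N * e))).2 hcoe (tdd_cusp_dvd N m u huW S)
  have hg0 : (⟨((ts : ↥(modularFunctionFieldBar (N * e))) : LaurentSeries Kbar), hgN⟩ :
      ↥(modularFunctionFieldBar N)) ≠ 0 := by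
    intro h0
    have h1 : ((ts : ↥(modularFunctionFieldBar (N * e))) : LaurentSeries Kbar) = 0 :=
      congrArg Subtype.val h0
    have h2 : (ts : ↥(modularFunctionFieldBar (N * e))) = 0 := Subtype.ext h1
    exact ts.ne_zero h2
  refine ⟨Units.mk0 _ hg0, ?_⟩
  have hut : u = Units.mk0 _ hg0 ^ m := by
    apply Units.ext
    apply Subtype.ext
    rw [Units.val_pow_eq_pow_val, Units.val_mk0, SubmonoidClass.coe_pow]
    exact hcoe.symm
  rw [← hut, hu]
  rw [mul_comm (tkrSig N σ y ^ 2), inv_mul_cancel_right]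

/-- **the T2-G statement at the good levels** `q N'`, `q ∤ N'`, `4 ∣ N'` or `9 ∣ N'` -/
def T2gGood : Prop :=
  ∀ (q : ℕ) (_ : q.Prime) (N' : ℕ) [NeZero N'], ¬ q ∣ N' → (4 ∣ N' ∨ 9 ∣ N') →
    ∀ (p : ℕ), p.Prime → p ≠ q → ∀ A : ValuationSubring Kbar, A.LiesOverPrime q →
      ∀ σ ∈ A.inertiaSubgroupIn ℚ, ∀ k : ℕ,
        haveI : NeZero (q * N') := ⟨Nat.mul_ne_zero ‹q.Prime›.ne_zero (NeZero.ne N')⟩
        T2gUnipAt (q * N') (p ^ k) σ

theorem t2gl_unipAt_congr {N N₁ : ℕ} [NeZero N] [NeZero N₁] (hN : N = N₁) {m : ℕ} {σ : GQ}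
    (h : T2gUnipAt N m σ) : T2gUnipAt N₁ m σ := by
  subst hN
  exact h

/-- **reduction to the good levels** -/
theorem t2gl_unip_of_good (hgood : T2gGood) : T2zUnip := by
  intro p hp N _ q hq hqp hqN hq2 A hA σ hσ k
  obtain ⟨N₀, rfl⟩ := hqN
  have hN₀ : N₀ ≠ 0 := fun h => NeZero.ne (q * N₀) (by rw [h, mul_zero])
  have hqN₀ : ¬ q ∣ N₀ := by
    rintro ⟨c, rfl⟩
    exact hq2 ⟨c, by ring⟩
  have hm : p ^ k ≠ 0 := pow_ne_zero k hp.out.ne_zero
  show T2gUnipAt (q * N₀) (p ^ k) σ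
  by_cases h2 : q = 2
  · -- `q = 2`: raise the level by `9`
    haveI : NeZero (N₀ * 9) := ⟨Nat.mul_ne_zero hN₀ (by norm_num)⟩
    haveI : NeZero (q * (N₀ * 9)) := ⟨Nat.mul_ne_zero hq.ne_zero (NeZero.ne _)⟩
    have hq9 : ¬ q ∣ N₀ * 9 := by
      intro hdvd
      rcases (Nat.Prime.dvd_mul hq).mp hdvd with h | h
      · exact hqN₀ h
      · rw [h2] at h
        omega
    have h1 := hgood q hq (N₀ * 9) hq9 (Or.inr (Dvd.intro_left N₀ rfl)) p hp.out hqp.symm A hA σ hσ k
    refine t2gl_unipAt_of_mul (q * N₀) 9 hm σ (t2gl_unipAt_congr ?_ h1)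
    ring
  · -- `q` odd: raise the level by `4`
    haveI : NeZero (N₀ * 4) := ⟨Nat.mul_ne_zero hN₀ (by norm_num)⟩
    haveI : NeZero (q * (N₀ * 4)) := ⟨Nat.mul_ne_zero hq.ne_zero (NeZero.ne _)⟩
    have hq4 : ¬ q ∣ N₀ * 4 := by
      intro hdvd
      rcases (Nat.Prime.dvd_mul hq).mp hdvd with h | h
      · exact hqN₀ h
      · have h4 : q ∣ 2 ^ 2 := by norm_num; exact h
        have := (Nat.prime_dvd_prime_iff_eq hq Nat.prime_two).mp (hq.dvd_of_dvd_pow h4)
        exact h2 this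
    have h1 := hgood q hq (N₀ * 4) hq4 (Or.inl (Dvd.intro_left N₀ rfl)) p hp.out hqp.symm A hA σ hσ k
    refine t2gl_unipAt_of_mul (q * N₀) 4 hm σ (t2gl_unipAt_congr ?_ h1)
    ring

end Fermat.Agent.T2
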