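/-
T2-G (helper5), abstract part (G-i): the Galois form of the two-component core.

* `t2g_core`: `su : T2Setup d σ`, `τ` a ring automorphism of `F` whose inverse preserves `𝒪`,
  commutes with `res` and preserves integrality over `K[x]`; `tw₂` a twist by `z`, `tw₁` a twist by
  `τ z`, `tw'` a twist by `τ z / z` (with the converse characterisations of `L1`).  Then the gluing
  invariants satisfy `M̄(τ z) ⊆ M̄(z)` and `t2_core` gives a global section of the twist by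
  `τ z / z` reducing to `1`.
* `t2g_exists_root_mod`: at the DVR level `H` of the modular function field: a nonzero `s` with
  `s ^ m * z'` integral over `L[x]` and `L[x⁻¹]` (`z'` Kummer) makes `z'` an `m`-th power in
  `F_K = modularFunctionFieldBar N`.
* `t2g_sigma_root_mod`: the two combined.
-/
import Fermat.Agent.Lib.T2.Core.Main
import Fermat.Agent.Lib.T2.Desc.AdjoinMod

set_option autoImplicit false
set_option linter.unusedSectionVars false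
set_option linter.style.haveILetI false

namespace Fermat.Agent.T2

open T1 (tbL tbLbar)

section Abstract

variable {K F k Fb : Type*} [Field K] [Field F] [Algebra K F] [Field k] [CommRing Fb] [Algebra k Fb]
variable {d : T2Base K F k Fb} {σ : Type*} [Fintype σ] {su : T2Setup d σ}

/-- **the Galois form of the two-component core** -/
theorem t2g_core [DecidableEq σ] (τ : F ≃+* F)
    (hτOv : ∀ f ∈ d.Ov, τ.symm f ∈ d.Ov)
    (hτres : ∀ (f : F) (hf : f ∈ d.Ov), d.res ⟨τ.symm f, hτOv f hf⟩ = d.res ⟨f, hf⟩)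
    (hτint : ∀ f ∈ t2Int (K := K) su.x, τ.symm f ∈ t2Int (K := K) su.x)
    (tw₁ tw₂ tw' : T2Twist su) (hy₁ : tw₁.y = τ tw₂.y) (hy' : tw'.y * tw₂.y = tw₁.y)
    (hL₁ : ∀ s : F, s ^ su.m * tw₁.y ∈ t2Int (K := K) su.x → s ∈ tw₁.L1)
    (hL₂ : ∀ s : F, s ^ su.m * tw₂.y ∈ t2Int (K := K) su.x → s ∈ tw₂.L1) :
    ∃ s : F, s ∈ tw'.L1 ∧ s ∈ tw'.L2 ∧ ∃ h : s ∈ d.Ov, d.res ⟨s, h⟩ = 1 := by
  refine t2_core tw₁ tw₂ tw' ?_ ?_
  · intro s hs t ht
    apply hL₁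
    have h1 := tw'.pow1 s hs
    have h2 := tw₂.pow1 t ht
    have h3 := t2Int_mul h1 h2
    have h4 : (s * t) ^ su.m * tw₁.y = s ^ su.m * tw'.y * (t ^ su.m * tw₂.y) := by
      rw [← hy']; ring
    rw [h4]
    exact h3
  · rintro _ ⟨s, hs, rfl⟩
    have h1 := tw₁.pow1 s hs.1
    have h2 := hτint _ h1
    have h3 : τ.symm (s ^ su.m * tw₁.y) = (τ.symm s) ^ su.m * tw₂.y := by
      rw [map_mul, map_pow, hy₁, RingEquiv.symm_apply_apply]
    rw [h3] at h2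
    exact ⟨τ.symm s, ⟨hL₂ _ h2, hτOv s hs.2⟩, hτres s hs.2⟩

/-- the section of `t2g_core`, unfolded: `s ^ m * y'` is integral on both charts -/
theorem t2g_core_isIntegral [DecidableEq σ] (τ : F ≃+* F)
    (hτOv : ∀ f ∈ d.Ov, τ.symm f ∈ d.Ov)
    (hτres : ∀ (f : F) (hf : f ∈ d.Ov), d.res ⟨τ.symm f, hτOv f hf⟩ = d.res ⟨f, hf⟩)
    (hτint : ∀ f ∈ t2Int (K := K) su.x, τ.symm f ∈ t2Int (K := K) su.x)
    (tw₁ tw₂ tw' : T2Twist su) (hy₁ : tw₁.y = τ tw₂.y) (hy' : tw'.y * tw₂.y = tw₁.y)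
    (hL₁ : ∀ s : F, s ^ su.m * tw₁.y ∈ t2Int (K := K) su.x → s ∈ tw₁.L1)
    (hL₂ : ∀ s : F, s ^ su.m * tw₂.y ∈ t2Int (K := K) su.x → s ∈ tw₂.L1)
    (h1ne : (1 : Fb) ≠ 0) :
    ∃ s : F, s ≠ 0 ∧ IsIntegral ↥(Algebra.adjoin K {su.x}) (s ^ su.m * tw'.y) ∧
      IsIntegral ↥(Algebra.adjoin K {su.x⁻¹}) (s ^ su.m * tw'.y) := by
  obtain ⟨s, hs1, hs2, hsO, hres⟩ :=
    t2g_core τ hτOv hτres hτint tw₁ tw₂ tw' hy₁ hy' hL₁ hL₂
  refine ⟨s, ?_, tw'.pow1 s hs1, tw'.pow2 s hs2⟩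
  rintro rfl
  rw [d.res_zero'] at hres
  exact h1ne hres.symm

end Abstract

section Level

open ModularCurve Module AlgebraicCurve IntermediateField Fermat.Agent.Curve
  Fermat.Agent.T1 Fermat.Agent.TW

local notation "Qb" => AlgebraicClosure ℚ

variable (𝔓 : FFPlace) (N : ℕ) [NeZero N] (H : Subgroup 𝔓.I) {x : ↥(tbLevF 𝔓 N H)}
  (hX : IsFunctionFieldGen Qb ↥(modularFunctionFieldBar N) (tbPhiF 𝔓 N H x))

include hX

set_option synthInstance.maxHeartbeats 400000 in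
set_option maxHeartbeats 800000 in
/-- **from a section to an `m`-th root** (level `H` ⟹ `ℚ̄`): a nonzero `s` with `s ^ m * z'`
integral over `L[x]` and over `L[x⁻¹]`, `z'` Kummer, makes `z'` an `m`-th power in `F_K` -/
theorem t2g_exists_root_mod {z' s : ↥(tbLevF 𝔓 N H)} {m : ℕ} (hz' : z' ≠ 0) (hm : 0 < m)
    (hdiv : ∀ v : Place Qb ↥(modularFunctionFieldBar N), (m : ℤ) ∣ v.ord (tbPhiF 𝔓 N H z'))
    (hs0 : s ≠ 0)
    (h1 : IsIntegral ↥(Algebra.adjoin ↥(tbFix 𝔓 H) {x}) (s ^ m * z'))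
    (h2 : IsIntegral ↥(Algebra.adjoin ↥(tbFix 𝔓 H) {x⁻¹}) (s ^ m * z')) :
    ∃ g : ↥(modularFunctionFieldBar N), g ^ m = tbPhiF 𝔓 N H z' := by
  haveI := hX.finite
  haveI : CharZero ↥Qb⟮tbPhiF 𝔓 N H x⟯ :=
    charZero_of_injective_algebraMap (algebraMap Qb ↥Qb⟮tbPhiF 𝔓 N H x⟯).injective
  haveI : Algebra.IsSeparable ↥Qb⟮tbPhiF 𝔓 N H x⟯ ↥(modularFunctionFieldBar N) := inferInstance
  have hY : tbPhiF 𝔓 N H z' ≠ 0 := fun h => hz' (tbPhiF_injective 𝔓 N H (by rw [h, map_zero]))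
  have hS : tbPhiF 𝔓 N H s ≠ 0 := fun h => hs0 (tbPhiF_injective 𝔓 N H (by rw [h, map_zero]))
  obtain ⟨E, hE, hE0⟩ := tw_exists_div hX hY hm hdiv
  have h1' := (t2d_isIntegral_tbPhiF_iff 𝔓 N H x (s ^ m * z')).mp h1
  have h2' := (t2d_isIntegral_tbPhiF_iff 𝔓 N H x⁻¹ (s ^ m * z')).mp h2
  rw [map_mul, map_pow] at h1' h2'
  rw [map_inv₀] at h2'
  exact tw_exists_root hX hY hm hE hE0 hS (t2d_mem_twL1_of_isIntegral hm hY hE h1')
    (t2d_mem_twL1_of_isIntegral hm hY hE h2')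

end Level

end Fermat.Agent.T2
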