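/-
T2-G (helper5), (G-iii): the level-`H` form of the S34 core.

`F = tbLevF 𝔓 N H` over `L = tbFix 𝔓 H`, `d : T2Base L F k Fb`, `su : T2Setup d σ'` whose Riemann–Roch
numbers are those of `F_K = modularFunctionFieldBar N` (as delivered by `t2d_dim0_mod`), `τ` an
automorphism of `F` whose inverse preserves `𝒪`, commutes with `res` and preserves integrality over
`L[x]`.  For a Kummer function `z` (all orders of `tbPhiF z` divisible by `m = su.m`) which is a unit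
of `𝒪` with `res z = 1 = res (τ z)`:

  **`t2g_level`**: `tbPhiF (τ z / z)` is an `m`-th power in `F_K`.

The twists are those of `t2d_exists_twist_mod`.
-/
import Fermat.Agent.Lib.T2.Gal.Core

set_option autoImplicit false
set_option linter.unusedSectionVars false
set_option linter.style.haveILetI false
set_option synthInstance.maxHeartbeats 400000

namespace Fermat.Agent.T2

open ModularCurve Module AlgebraicCurve IntermediateField Fermat.Agent.Curve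
  Fermat.Agent.T1 Fermat.Agent.TW

local notation "Qb" => AlgebraicClosure ℚ

set_option maxHeartbeats 4000000 in
/-- the twist of a Kummer function `z` with `res z = 1` -/
theorem t2g_exists_twist (𝔓 : FFPlace) (N : ℕ) [NeZero N] (H : Subgroup 𝔓.I)
    {k Fb : Type*} [Field k] [CommRing Fb] [Algebra k Fb]
    {d : T2Base ↥(tbFix 𝔓 H) ↥(tbLevF 𝔓 N H) k Fb} {σ' : Type*} [Fintype σ']
    (su : T2Setup d σ')
    (hX : IsFunctionFieldGen Qb ↥(modularFunctionFieldBar N) (tbPhiF 𝔓 N H su.x))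
    (hn : (su.n : ℤ) = finrank ↥Qb⟮tbPhiF 𝔓 N H su.x⟯ ↥(modularFunctionFieldBar N))
    (hc : su.c = 1 - CurveP.genusR Qb ↥(modularFunctionFieldBar N))
    {z : ↥(tbLevF 𝔓 N H)} (hz0 : z ≠ 0) (hz : z ∈ d.Ov)
    (hz1 : d.res ⟨z, hz⟩ = 1)
    (hdiv : ∀ v : Place Qb ↥(modularFunctionFieldBar N), (su.m : ℤ) ∣ v.ord (tbPhiF 𝔓 N H z)) :
    ∃ tw : T2Twist su, tw.y = z ∧
      (∀ s, s ^ su.m * z ∈ t2Int (K := ↥(tbFix 𝔓 H)) su.x → s ∈ tw.L1) ∧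
      (∀ s, s ^ su.m * z ∈ t2Int (K := ↥(tbFix 𝔓 H)) su.x⁻¹ → s ∈ tw.L2) := by
  obtain ⟨L1, L2, hL1, hL2, hmul1, hmul2, hex1, hex2, hfin, hdim⟩ :=
    t2d_exists_twist_mod 𝔓 N H hX hz0 su.m_pos hdiv
  refine ⟨{ y := z
            hy := hz
            hy1 := hz1
            L1 := L1
            L2 := L2
            mul_mem1 := fun f s hf hs => hmul1 f s hf hs
            mul_mem2 := fun f s hf hs => hmul2 f s hf hs
            pow1 := fun s hs => (hL1 s).mp hs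
            pow2 := fun s hs => (hL2 s).mp hs
            exists1 := hex1
            exists2 := hex2
            finL := hfin
            dimgen := fun a b _ => by
              have := hdim a b
              rw [hn, hc]
              exact this }, rfl, fun s hs => (hL1 s).mpr hs, fun s hs => (hL2 s).mpr hs⟩

set_option maxHeartbeats 4000000 in
/-- **the S34 core at level `H`**: `τ z / z` is an `m`-th power over `ℚ̄` -/
theorem t2g_level (𝔓 : FFPlace) (N : ℕ) [NeZero N] (H : Subgroup 𝔓.I)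
    {k Fb : Type*} [Field k] [CommRing Fb] [Algebra k Fb]
    {d : T2Base ↥(tbFix 𝔓 H) ↥(tbLevF 𝔓 N H) k Fb} {σ' : Type*} [Fintype σ']
    (su : T2Setup d σ')
    (hX : IsFunctionFieldGen Qb ↥(modularFunctionFieldBar N) (tbPhiF 𝔓 N H su.x))
    (hn : (su.n : ℤ) = finrank ↥Qb⟮tbPhiF 𝔓 N H su.x⟯ ↥(modularFunctionFieldBar N))
    (hc : su.c = 1 - CurveP.genusR Qb ↥(modularFunctionFieldBar N))
    [DecidableEq σ'] (h1ne : (1 : Fb) ≠ 0)
    (τ : ↥(tbLevF 𝔓 N H) ≃+* ↥(tbLevF 𝔓 N H))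
    (hτOv : ∀ f ∈ d.Ov, τ.symm f ∈ d.Ov)
    (hτres : ∀ (f : ↥(tbLevF 𝔓 N H)) (hf : f ∈ d.Ov),
      d.res ⟨τ.symm f, hτOv f hf⟩ = d.res ⟨f, hf⟩)
    (hτint : ∀ f ∈ t2Int (K := ↥(tbFix 𝔓 H)) su.x, τ.symm f ∈ t2Int (K := ↥(tbFix 𝔓 H)) su.x)
    {z : ↥(tbLevF 𝔓 N H)} (hz0 : z ≠ 0) (hz : z ∈ d.Ov) (hzi : z⁻¹ ∈ d.Ov)
    (hz1 : d.res ⟨z, hz⟩ = 1) (hτz : τ z ∈ d.Ov) (hτz1 : d.res ⟨τ z, hτz⟩ = 1)
    (hdiv : ∀ v : Place Qb ↥(modularFunctionFieldBar N), (su.m : ℤ) ∣ v.ord (tbPhiF 𝔓 N H z))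
    (hdivτ : ∀ v : Place Qb ↥(modularFunctionFieldBar N),
      (su.m : ℤ) ∣ v.ord (tbPhiF 𝔓 N H (τ z))) :
    ∃ g : ↥(modularFunctionFieldBar N), g ^ su.m = tbPhiF 𝔓 N H (τ z / z) := by
  have hτz0 : τ z ≠ 0 := (map_ne_zero τ).mpr hz0
  have hq0 : τ z / z ≠ 0 := div_ne_zero hτz0 hz0
  have hqO : τ z / z ∈ d.Ov := by
    rw [div_eq_mul_inv]
    exact d.Ov.mul_mem hτz hzi
  -- `res z⁻¹ = 1`
  have hzi1 : d.res ⟨z⁻¹, hzi⟩ = 1 := by
    have h2 : (⟨z, hz⟩ : ↥d.Ov) * ⟨z⁻¹, hzi⟩ = 1 := Subtype.ext (mul_inv_cancel₀ hz0)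
    have h3 := congrArg d.res h2
    rwa [map_mul, hz1, one_mul, map_one] at h3
  have hq1 : d.res ⟨τ z / z, hqO⟩ = 1 := by
    have h2 : (⟨τ z / z, hqO⟩ : ↥d.Ov) = ⟨τ z, hτz⟩ * ⟨z⁻¹, hzi⟩ :=
      Subtype.ext (div_eq_mul_inv _ _)
    rw [h2, map_mul, hτz1, hzi1, one_mul]
  have hdivq : ∀ v : Place Qb ↥(modularFunctionFieldBar N),
      (su.m : ℤ) ∣ v.ord (tbPhiF 𝔓 N H (τ z / z)) := by
    intro v
    have hY : tbPhiF 𝔓 N H z ≠ 0 := fun h => hz0 (tbPhiF_injective 𝔓 N H (by rw [h, map_zero]))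
    have hY' : tbPhiF 𝔓 N H (τ z) ≠ 0 :=
      fun h => hτz0 (tbPhiF_injective 𝔓 N H (by rw [h, map_zero]))
    rw [map_div₀, div_eq_mul_inv, v.ord_mul hY' (inv_ne_zero hY), v.ord_inv]
    exact dvd_add (hdivτ v) ((dvd_neg).mpr (hdiv v))
  obtain ⟨tw₂, hy₂, hL₂, -⟩ := t2g_exists_twist 𝔓 N H su hX hn hc hz0 hz hz1 hdiv
  obtain ⟨tw₁, hy₁, hL₁, -⟩ := t2g_exists_twist 𝔓 N H su hX hn hc hτz0 hτz hτz1 hdivτ
  obtain ⟨tw', hy', -, -⟩ := t2g_exists_twist 𝔓 N H su hX hn hc hq0 hqO hq1 hdivq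
  obtain ⟨s, hs0, hs1, hs2⟩ := t2g_core_isIntegral τ hτOv hτres hτint tw₁ tw₂ tw'
    (by rw [hy₁, hy₂]) (by rw [hy', hy₂, hy₁, div_mul_cancel₀ _ hz0])
    (fun s hs => hL₁ s (by rw [← hy₁]; exact hs))
    (fun s hs => hL₂ s (by rw [← hy₂]; exact hs)) h1ne
  rw [hy'] at hs1 hs2
  exact t2g_exists_root_mod 𝔓 N H hX hq0 su.m_pos hdivq hs0 hs1 hs2

end Fermat.Agent.T2
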