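/-
T2-G (helper5), abstract part (G-ii): unit normalisation ((S1) of the T2 brief).

`A ⊆ L` a valuation ring with residue map `resA : A → k`, `F / L` a field, `G ⊆ F` a "Gauss ring"
with residue map `ρ : G → Ω` (`Ω` a field) extending `resA`, such that every `f ≠ 0` can be scaled
by a constant into `G` with non-zero residue, and elements of `G` with non-zero residue are units
of `G`.  `τ` an automorphism of `F` inducing `τL` on `L` with `τL c / c ∈ A` (it preserves the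
valuation), `τ G ⊆ G`, `ρ ∘ τ = ρ` (inertia).
* `t2g_ratio`: for every `y ≠ 0`, `τ y / y ∈ G` and `ρ (τ y / y)` is a non-zero constant;
* `t2g_normalise`: for two such Gauss rings `(G₁, ρ₁)`, `(G₂, ρ₂)` and an element `e ∈ G₁ ∩ G₂`
  with `ρ₁ e = 1`, `ρ₂ e = 0`: for every `y ≠ 0` there is `h ∈ G₁ ∩ G₂`, `h ≠ 0`, such that
  `z := τ y / (y h ^ m)` lies in `G₁ ∩ G₂` and `ρ₁ z = 1`, `ρ₂ z = 1` (`k` has `m`-th roots).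
-/
import Mathlib

set_option autoImplicit false
set_option linter.unusedSectionVars false
set_option linter.style.haveILetI false

namespace Fermat.Agent.T2

section One

variable {L F k Ω : Type*} [Field L] [Field F] [Algebra L F] [Field k] [Field Ω] [Algebra k Ω]
  (A : ValuationSubring L) (resA : ↥A →+* k)
  (G : Subring F) (ρ : ↥G →+* Ω)
  (hA : ∀ a : ↥A, algebraMap L F (a : L) ∈ G)
  (hρA : ∀ a : ↥A, ρ ⟨algebraMap L F (a : L), hA a⟩ = algebraMap k Ω (resA a))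
  (hunit : ∀ (g : F) (hg : g ∈ G), ρ ⟨g, hg⟩ ≠ 0 → g⁻¹ ∈ G)
  (hnorm : ∀ f : F, f ≠ 0 → ∃ c : L, c ≠ 0 ∧ ∃ h : c • f ∈ G, ρ ⟨c • f, h⟩ ≠ 0)
  (τ : F ≃+* F) (τL : L ≃+* L) (hτL : ∀ c : L, τ (algebraMap L F c) = algebraMap L F (τL c))
  (hτA : ∀ c : L, c ≠ 0 → τL c / c ∈ A)
  (hτG : ∀ g ∈ G, τ g ∈ G) (hτρ : ∀ (g : F) (hg : g ∈ G), ρ ⟨τ g, hτG g hg⟩ = ρ ⟨g, hg⟩)

include hρA hunit hnorm hτL hτA hτρ in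
/-- `τ y / y` is a Gauss unit with constant residue -/
theorem t2g_ratio (y : F) (hy : y ≠ 0) :
    ∃ (u : ↥A) (hu : τ y / y ∈ G), resA u ≠ 0 ∧ ρ ⟨τ y / y, hu⟩ = algebraMap k Ω (resA u) := by
  obtain ⟨c, hc0, hcG, hρ0⟩ := hnorm y hy
  set y₀ : F := c • y with hy₀
  have hy₀0 : y₀ ≠ 0 := by
    rw [hy₀, Algebra.smul_def]
    exact mul_ne_zero ((map_ne_zero _).mpr hc0) hy
  -- the Gauss unit part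
  have hinv : y₀⁻¹ ∈ G := hunit y₀ hcG hρ0
  have hτy₀ : τ y₀ ∈ G := hτG y₀ hcG
  have hq : τ y₀ * y₀⁻¹ ∈ G := G.mul_mem hτy₀ hinv
  have hρq : ρ ⟨τ y₀ * y₀⁻¹, hq⟩ = 1 := by
    have h1 : ρ ⟨τ y₀ * y₀⁻¹, hq⟩ = ρ ⟨τ y₀, hτy₀⟩ * ρ ⟨y₀⁻¹, hinv⟩ :=
      map_mul ρ ⟨τ y₀, hτy₀⟩ ⟨y₀⁻¹, hinv⟩
    rw [h1, hτρ y₀ hcG, ← map_mul]
    have h2 : (⟨y₀, hcG⟩ : ↥G) * ⟨y₀⁻¹, hinv⟩ = 1 := Subtype.ext (mul_inv_cancel₀ hy₀0)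
    rw [h2, map_one]
  -- the constant part
  have hc0' : c⁻¹ ≠ 0 := inv_ne_zero hc0
  have hτc0 : τL c ≠ 0 := (map_ne_zero τL).mpr hc0
  set u : ↥A := ⟨τL c⁻¹ / c⁻¹, hτA c⁻¹ hc0'⟩ with hu
  set u' : ↥A := ⟨τL c / c, hτA c hc0⟩ with hu'
  have huu' : u * u' = 1 := by
    apply Subtype.ext
    show τL c⁻¹ / c⁻¹ * (τL c / c) = 1
    rw [map_inv₀]
    field_simp
  have hres_u : resA u ≠ 0 := by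
    intro h0
    have := congrArg resA huu'
    rw [map_mul, h0, zero_mul, map_one] at this
    exact zero_ne_one this
  -- the ratio
  have hratio : τ y / y = τ y₀ * y₀⁻¹ * algebraMap L F (u : L) := by
    have h1 : τ y₀ = algebraMap L F (τL c) * τ y := by
      rw [hy₀, Algebra.smul_def, map_mul, hτL]
    have h2 : algebraMap L F (τL c) ≠ 0 := (map_ne_zero _).mpr hτc0
    have h3 : algebraMap L F c ≠ 0 := (map_ne_zero _).mpr hc0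
    rw [h1, hy₀, Algebra.smul_def]
    show _ = _ * algebraMap L F (τL c⁻¹ / c⁻¹)
    rw [map_div₀, map_inv₀, map_inv₀, map_inv₀]
    field_simp
  have hmem : τ y / y ∈ G := by
    rw [hratio]
    exact G.mul_mem hq (hA u)
  refine ⟨u, hmem, hres_u, ?_⟩
  have h4 : (⟨τ y / y, hmem⟩ : ↥G) = ⟨τ y₀ * y₀⁻¹, hq⟩ * ⟨algebraMap L F (u : L), hA u⟩ :=
    Subtype.ext hratio
  rw [h4, map_mul, hρq, one_mul, hρA]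

end One

section Two

variable {L F k Ω₁ Ω₂ : Type*} [Field L] [Field F] [Algebra L F] [Field k] [Field Ω₁]
  [Algebra k Ω₁] [Field Ω₂] [Algebra k Ω₂]
  (A : ValuationSubring L) (resA : ↥A →+* k) (hresA : Function.Surjective resA)
  (G₁ : Subring F) (ρ₁ : ↥G₁ →+* Ω₁) (G₂ : Subring F) (ρ₂ : ↥G₂ →+* Ω₂)
  (hA₁ : ∀ a : ↥A, algebraMap L F (a : L) ∈ G₁)
  (hρA₁ : ∀ a : ↥A, ρ₁ ⟨algebraMap L F (a : L), hA₁ a⟩ = algebraMap k Ω₁ (resA a))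
  (hunit₁ : ∀ (g : F) (hg : g ∈ G₁), ρ₁ ⟨g, hg⟩ ≠ 0 → g⁻¹ ∈ G₁)
  (hnorm₁ : ∀ f : F, f ≠ 0 → ∃ c : L, c ≠ 0 ∧ ∃ h : c • f ∈ G₁, ρ₁ ⟨c • f, h⟩ ≠ 0)
  (hA₂ : ∀ a : ↥A, algebraMap L F (a : L) ∈ G₂)
  (hρA₂ : ∀ a : ↥A, ρ₂ ⟨algebraMap L F (a : L), hA₂ a⟩ = algebraMap k Ω₂ (resA a))
  (hunit₂ : ∀ (g : F) (hg : g ∈ G₂), ρ₂ ⟨g, hg⟩ ≠ 0 → g⁻¹ ∈ G₂)
  (hnorm₂ : ∀ f : F, f ≠ 0 → ∃ c : L, c ≠ 0 ∧ ∃ h : c • f ∈ G₂, ρ₂ ⟨c • f, h⟩ ≠ 0)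
  (τ : F ≃+* F) (τL : L ≃+* L) (hτL : ∀ c : L, τ (algebraMap L F c) = algebraMap L F (τL c))
  (hτA : ∀ c : L, c ≠ 0 → τL c / c ∈ A)
  (hτG₁ : ∀ g ∈ G₁, τ g ∈ G₁)
  (hτρ₁ : ∀ (g : F) (hg : g ∈ G₁), ρ₁ ⟨τ g, hτG₁ g hg⟩ = ρ₁ ⟨g, hg⟩)
  (hτG₂ : ∀ g ∈ G₂, τ g ∈ G₂)
  (hτρ₂ : ∀ (g : F) (hg : g ∈ G₂), ρ₂ ⟨τ g, hτG₂ g hg⟩ = ρ₂ ⟨g, hg⟩)
  (e : F) (he₁ : e ∈ G₁) (he₂ : e ∈ G₂) (hρe₁ : ρ₁ ⟨e, he₁⟩ = 1) (hρe₂ : ρ₂ ⟨e, he₂⟩ = 0)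
  (m : ℕ) (hroot : ∀ c : k, ∃ c' : k, c' ^ m = c)

include hresA hρA₁ hunit₁ hnorm₁ hρA₂ hunit₂ hnorm₂ hτL hτA hτρ₁ hτρ₂ hρe₁ hρe₂ hroot in
/-- **unit normalisation**: `z := τ y / (y h ^ m)` is a unit of `G₁ ∩ G₂` reducing to `(1, 1)` -/
theorem t2g_normalise (y : F) (hy : y ≠ 0) :
    ∃ h : F, h ≠ 0 ∧ h ∈ G₁ ∧ h ∈ G₂ ∧ h⁻¹ ∈ G₁ ∧ h⁻¹ ∈ G₂ ∧
      ∃ (hz₁ : τ y / (y * h ^ m) ∈ G₁) (hz₂ : τ y / (y * h ^ m) ∈ G₂),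
        ρ₁ ⟨τ y / (y * h ^ m), hz₁⟩ = 1 ∧ ρ₂ ⟨τ y / (y * h ^ m), hz₂⟩ = 1 := by
  obtain ⟨u₁, hu₁G, hu₁0, hρu₁⟩ :=
    t2g_ratio A resA G₁ ρ₁ hA₁ hρA₁ hunit₁ hnorm₁ τ τL hτL hτA hτG₁ hτρ₁ y hy
  obtain ⟨u₂, hu₂G, hu₂0, hρu₂⟩ :=
    t2g_ratio A resA G₂ ρ₂ hA₂ hρA₂ hunit₂ hnorm₂ τ τL hτL hτA hτG₂ hτρ₂ y hy
  -- `m`-th roots of the constants, lifted to `A`
  obtain ⟨c₁, hc₁⟩ := hroot (resA u₁)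
  obtain ⟨c₂, hc₂⟩ := hroot (resA u₂)
  obtain ⟨a₁, ha₁⟩ := hresA c₁
  obtain ⟨a₂, ha₂⟩ := hresA c₂
  have hm0 : m ≠ 0 := by
    rintro rfl
    obtain ⟨c', hc'⟩ := hroot 0
    rw [pow_zero] at hc'
    exact one_ne_zero hc'
  have hc₁0 : c₁ ≠ 0 := by
    rintro rfl
    rw [zero_pow hm0] at hc₁
    exact hu₁0 hc₁.symm
  have hc₂0 : c₂ ≠ 0 := by
    rintro rfl
    rw [zero_pow hm0] at hc₂
    exact hu₂0 hc₂.symm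
  -- the element `h = a₁ e + a₂ (1 - e)`
  set h : F := algebraMap L F (a₁ : L) * e + algebraMap L F (a₂ : L) * (1 - e) with hh
  have hhG₁ : h ∈ G₁ :=
    G₁.add_mem (G₁.mul_mem (hA₁ a₁) he₁) (G₁.mul_mem (hA₁ a₂) (G₁.sub_mem G₁.one_mem he₁))
  have hhG₂ : h ∈ G₂ :=
    G₂.add_mem (G₂.mul_mem (hA₂ a₁) he₂) (G₂.mul_mem (hA₂ a₂) (G₂.sub_mem G₂.one_mem he₂))
  have hρh₁ : ρ₁ ⟨h, hhG₁⟩ = algebraMap k Ω₁ c₁ := by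
    have h1 : (⟨h, hhG₁⟩ : ↥G₁) = ⟨algebraMap L F (a₁ : L), hA₁ a₁⟩ * ⟨e, he₁⟩ +
        ⟨algebraMap L F (a₂ : L), hA₁ a₂⟩ * (1 - ⟨e, he₁⟩) := Subtype.ext rfl
    rw [h1, map_add, map_mul, map_mul, map_sub, map_one, hρe₁, sub_self, mul_zero, add_zero,
      mul_one, hρA₁, ha₁]
  have hρh₂ : ρ₂ ⟨h, hhG₂⟩ = algebraMap k Ω₂ c₂ := by
    have h1 : (⟨h, hhG₂⟩ : ↥G₂) = ⟨algebraMap L F (a₁ : L), hA₂ a₁⟩ * ⟨e, he₂⟩ +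
        ⟨algebraMap L F (a₂ : L), hA₂ a₂⟩ * (1 - ⟨e, he₂⟩) := Subtype.ext rfl
    rw [h1, map_add, map_mul, map_mul, map_sub, map_one, hρe₂, sub_zero, mul_zero, zero_add,
      mul_one, hρA₂, ha₂]
  have hρh₁0 : ρ₁ ⟨h, hhG₁⟩ ≠ 0 := by
    rw [hρh₁]
    exact (map_ne_zero _).mpr hc₁0
  have hρh₂0 : ρ₂ ⟨h, hhG₂⟩ ≠ 0 := by
    rw [hρh₂]
    exact (map_ne_zero _).mpr hc₂0
  have hh0 : h ≠ 0 := by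
    intro h0
    apply hρh₁0
    have : (⟨h, hhG₁⟩ : ↥G₁) = 0 := Subtype.ext h0
    rw [this, map_zero]
  have hinv₁ : h⁻¹ ∈ G₁ := hunit₁ h hhG₁ hρh₁0
  have hinv₂ : h⁻¹ ∈ G₂ := hunit₂ h hhG₂ hρh₂0
  have hzeq : τ y / (y * h ^ m) = τ y / y * (h⁻¹) ^ m := by
    rw [inv_pow, div_mul_eq_div_div, div_eq_mul_inv (τ y / y)]
  have hz₁ : τ y / (y * h ^ m) ∈ G₁ := by
    rw [hzeq]
    exact G₁.mul_mem hu₁G (G₁.pow_mem hinv₁ m)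
  have hz₂ : τ y / (y * h ^ m) ∈ G₂ := by
    rw [hzeq]
    exact G₂.mul_mem hu₂G (G₂.pow_mem hinv₂ m)
  refine ⟨h, hh0, hhG₁, hhG₂, hinv₁, hinv₂, hz₁, hz₂, ?_, ?_⟩
  · have h1 : (⟨τ y / (y * h ^ m), hz₁⟩ : ↥G₁) * ⟨h, hhG₁⟩ ^ m = ⟨τ y / y, hu₁G⟩ := by
      apply Subtype.ext
      show τ y / (y * h ^ m) * h ^ m = τ y / y
      field_simp
    have h2 := congrArg ρ₁ h1
    rw [map_mul, map_pow, hρh₁, hρu₁, ← map_pow, hc₁] at h2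
    have h3 : algebraMap k Ω₁ (resA u₁) ≠ 0 := (map_ne_zero _).mpr hu₁0
    exact mul_right_cancel₀ h3 (by rw [h2, one_mul])
  · have h1 : (⟨τ y / (y * h ^ m), hz₂⟩ : ↥G₂) * ⟨h, hhG₂⟩ ^ m = ⟨τ y / y, hu₂G⟩ := by
      apply Subtype.ext
      show τ y / (y * h ^ m) * h ^ m = τ y / y
      field_simp
    have h2 := congrArg ρ₂ h1
    rw [map_mul, map_pow, hρh₂, hρu₂, ← map_pow, hc₂] at h2
    have h3 : algebraMap k Ω₂ (resA u₂) ≠ 0 := (map_ne_zero _).mpr hu₂0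
    exact mul_right_cancel₀ h3 (by rw [h2, one_mul])

end Two

end Fermat.Agent.T2
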