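/-
T2-G, concrete part (helper4), file 3: **the S34 core for one Kummer function**.
`t2gf_main`: at a level `H` (normal in the inertia group), given the two-component base `d`, the
setup `su` (with the Riemann–Roch numbers of `F_K`), the two Gauss rings `(G₁, ρ₁)`, `(G₂, ρ₂)` with
`G₁ ∩ G₂ ⊆ 𝒪` and the compatibilities (C5) of the coefficientwise action of inertia, every
`y ∈ tWsub ℚ̄ N m` which comes from the level `H` satisfies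
`σ(σ y) · y = (σ y)² · t ^ m` for some `t`.
Proof: unit normalisation (`t2g_normalise`) gives `z = σ y / (y h ^ m)`, a unit of `𝒪` reducing
to `1`; `t2g_level` makes `σ z / z` an `m`-th power.
-/
import Mathlib
import Fermat.Agent.Lib.T2.Gal.Sigma
import Fermat.Agent.Lib.T2.Gal.Normalise
import Fermat.Agent.Lib.T2.Gal.LevelCore
import Fermat.Agent.Lib.T2.Gal.Level

set_option autoImplicit false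
set_option linter.unusedSectionVars false
set_option linter.style.haveILetI false

namespace Fermat.Agent.T2

open ModularCurve Module AlgebraicCurve IntermediateField Fermat.Agent.Curve
  Fermat.Agent.T1 Fermat.Agent.TW

local notation "Qb" => AlgebraicClosure ℚ
local notation "GQ" => (AlgebraicClosure ℚ ≃ₐ[ℚ] AlgebraicClosure ℚ)

/-- the group-theoretic identity behind `(σ - 1)² = 0` -/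
theorem t2gf_group_identity {U : Type*} [CommGroup U] (S : U →* U) (y η g Z : U) (m : ℕ)
    (hZ : Z = S y * (y * η ^ m)⁻¹) (hg : g ^ m = S Z * Z⁻¹) :
    S (S y) * y = S y ^ 2 * (g * (S η * η⁻¹)) ^ m := by
  subst hZ
  rw [mul_pow, hg]
  simp only [map_mul, map_inv, map_pow, mul_pow, inv_pow, mul_inv_rev, inv_inv]
  have key : ∀ a b c e f : U,
      a * b = c ^ 2 * (a * (f⁻¹ * c⁻¹) * (b * e * c⁻¹) * (f * e⁻¹)) := by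
    intro a b c e f
    have h1 : c ^ 2 * (a * (f⁻¹ * c⁻¹) * (b * e * c⁻¹) * (f * e⁻¹))
        = a * b * (c ^ 2 * c⁻¹ * c⁻¹) * (f * f⁻¹) * (e * e⁻¹) := by
      simp only [mul_assoc, mul_comm, mul_left_comm]
    rw [h1, mul_inv_cancel, mul_inv_cancel, mul_one, mul_one, pow_two, mul_assoc c c,
      mul_inv_cancel, mul_one, mul_inv_cancel, mul_one]
  exact key _ _ _ _ _

set_option maxHeartbeats 8000000 in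
/-- **the S34 core for one Kummer function coming from the level `H`** -/
theorem t2gf_main (𝔓 : FFPlace) (N : ℕ) [NeZero N] (H : Subgroup 𝔓.I) [H.Normal] (σ : 𝔓.I)
    {k Fb : Type*} [Field k] [CommRing Fb] [Algebra k Fb]
    {d : T2Base ↥(tbFix 𝔓 H) ↥(tbLevF 𝔓 N H) k Fb} {σ' : Type*} [Fintype σ'] [DecidableEq σ']
    (su : T2Setup d σ')
    (hX : IsFunctionFieldGen Qb ↥(modularFunctionFieldBar N) (tbPhiF 𝔓 N H su.x))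
    (hn : (su.n : ℤ) = finrank ↥Qb⟮tbPhiF 𝔓 N H su.x⟯ ↥(modularFunctionFieldBar N))
    (hc : su.c = 1 - CurveP.genusR Qb ↥(modularFunctionFieldBar N))
    (h1ne : (1 : Fb) ≠ 0)
    -- (C5) for the base
    (hτOv : ∀ (ρ : 𝔓.I) (f : ↥(tbLevF 𝔓 N H)), f ∈ d.Ov → t2gsF 𝔓 H ρ N f ∈ d.Ov)
    (hτres : ∀ (ρ : 𝔓.I) (f : ↥(tbLevF 𝔓 N H)) (hf : f ∈ d.Ov),
      d.res ⟨t2gsF 𝔓 H ρ N f, hτOv ρ f hf⟩ = d.res ⟨f, hf⟩)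
    (hτx : ∀ ρ : 𝔓.I, t2gsF 𝔓 H ρ N su.x = su.x)
    (hτA : ∀ c : ↥(tbFix 𝔓 H), c ≠ 0 → t2gsL 𝔓 H σ c / c ∈ d.A)
    -- the two Gauss rings
    {Ω₁ Ω₂ : Type*} [Field Ω₁] [Algebra k Ω₁] [Field Ω₂] [Algebra k Ω₂]
    (G₁ : Subring ↥(tbLevF 𝔓 N H)) (ρ₁ : ↥G₁ →+* Ω₁)
    (G₂ : Subring ↥(tbLevF 𝔓 N H)) (ρ₂ : ↥G₂ →+* Ω₂)
    (hA₁ : ∀ a : ↥d.A, algebraMap ↥(tbFix 𝔓 H) ↥(tbLevF 𝔓 N H) (a : ↥(tbFix 𝔓 H)) ∈ G₁)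
    (hρA₁ : ∀ a : ↥d.A, ρ₁ ⟨algebraMap ↥(tbFix 𝔓 H) ↥(tbLevF 𝔓 N H) (a : ↥(tbFix 𝔓 H)), hA₁ a⟩
      = algebraMap k Ω₁ (d.resA a))
    (hunit₁ : ∀ (g : ↥(tbLevF 𝔓 N H)) (hg : g ∈ G₁), ρ₁ ⟨g, hg⟩ ≠ 0 → g⁻¹ ∈ G₁)
    (hnorm₁ : ∀ f : ↥(tbLevF 𝔓 N H), f ≠ 0 →
      ∃ c : ↥(tbFix 𝔓 H), c ≠ 0 ∧ ∃ h : c • f ∈ G₁, ρ₁ ⟨c • f, h⟩ ≠ 0)
    (hA₂ : ∀ a : ↥d.A, algebraMap ↥(tbFix 𝔓 H) ↥(tbLevF 𝔓 N H) (a : ↥(tbFix 𝔓 H)) ∈ G₂)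
    (hρA₂ : ∀ a : ↥d.A, ρ₂ ⟨algebraMap ↥(tbFix 𝔓 H) ↥(tbLevF 𝔓 N H) (a : ↥(tbFix 𝔓 H)), hA₂ a⟩
      = algebraMap k Ω₂ (d.resA a))
    (hunit₂ : ∀ (g : ↥(tbLevF 𝔓 N H)) (hg : g ∈ G₂), ρ₂ ⟨g, hg⟩ ≠ 0 → g⁻¹ ∈ G₂)
    (hnorm₂ : ∀ f : ↥(tbLevF 𝔓 N H), f ≠ 0 →
      ∃ c : ↥(tbFix 𝔓 H), c ≠ 0 ∧ ∃ h : c • f ∈ G₂, ρ₂ ⟨c • f, h⟩ ≠ 0)
    (hτG₁ : ∀ g ∈ G₁, t2gsF 𝔓 H σ N g ∈ G₁)
    (hτρ₁ : ∀ (g : ↥(tbLevF 𝔓 N H)) (hg : g ∈ G₁),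
      ρ₁ ⟨t2gsF 𝔓 H σ N g, hτG₁ g hg⟩ = ρ₁ ⟨g, hg⟩)
    (hτG₂ : ∀ g ∈ G₂, t2gsF 𝔓 H σ N g ∈ G₂)
    (hτρ₂ : ∀ (g : ↥(tbLevF 𝔓 N H)) (hg : g ∈ G₂),
      ρ₂ ⟨t2gsF 𝔓 H σ N g, hτG₂ g hg⟩ = ρ₂ ⟨g, hg⟩)
    (e : ↥(tbLevF 𝔓 N H)) (he₁ : e ∈ G₁) (he₂ : e ∈ G₂) (hρe₁ : ρ₁ ⟨e, he₁⟩ = 1)
    (hρe₂ : ρ₂ ⟨e, he₂⟩ = 0)
    (hroot : ∀ c : k, ∃ c' : k, c' ^ su.m = c)
    (hG : ∀ f : ↥(tbLevF 𝔓 N H), f ∈ G₁ → f ∈ G₂ → f ∈ d.Ov)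
    (hρ : ∀ (f : ↥(tbLevF 𝔓 N H)) (h1 : f ∈ G₁) (h2 : f ∈ G₂),
      ρ₁ ⟨f, h1⟩ = 1 → ρ₂ ⟨f, h2⟩ = 1 → d.res ⟨f, hG f h1 h2⟩ = 1)
    -- the Kummer function
    {y : (↥(modularFunctionFieldBar N))ˣ} (hy : y ∈ tWsub Qb N su.m)
    (fy : ↥(tbLevF 𝔓 N H)) (hfy : tbPhiF 𝔓 N H fy = (y : ↥(modularFunctionFieldBar N))) :
    ∃ t : (↥(modularFunctionFieldBar N))ˣ,
      tkrSig N ((σ : 𝔓.I) : GQ) (tkrSig N ((σ : 𝔓.I) : GQ) y) * y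
        = tkrSig N ((σ : 𝔓.I) : GQ) y ^ 2 * t ^ su.m := by
  classical
  have hfy0 : fy ≠ 0 := by
    rintro rfl
    rw [map_zero] at hfy
    exact y.ne_zero hfy.symm
  -- unit normalisation
  obtain ⟨h, hh0, hhG₁, hhG₂, hhi₁, hhi₂, hz₁, hz₂, hρz₁, hρz₂⟩ :=
    t2g_normalise d.A d.resA d.resA_surj G₁ ρ₁ G₂ ρ₂ hA₁ hρA₁ hunit₁ hnorm₁ hA₂ hρA₂ hunit₂ hnorm₂
      (t2gsF 𝔓 H σ N) (t2gsL 𝔓 H σ : ↥(tbFix 𝔓 H) ≃+* ↥(tbFix 𝔓 H)) (t2gsF_algebraMap 𝔓 H σ N) hτA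
      hτG₁ hτρ₁ hτG₂ hτρ₂ e he₁ he₂ hρe₁ hρe₂ su.m hroot fy hfy0
  generalize hz : t2gsF 𝔓 H σ N fy / (fy * h ^ su.m) = z at hz₁ hz₂ hρz₁ hρz₂
  have hτfy0 : t2gsF 𝔓 H σ N fy ≠ 0 := (map_ne_zero _).mpr hfy0
  have hz0 : z ≠ 0 := by
    rw [← hz]
    exact div_ne_zero hτfy0 (mul_ne_zero hfy0 (pow_ne_zero _ hh0))
  have hzOv : z ∈ d.Ov := hG z hz₁ hz₂
  have hz1 : d.res ⟨z, hzOv⟩ = 1 := hρ z hz₁ hz₂ hρz₁ hρz₂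
  have hzi₁ : z⁻¹ ∈ G₁ := hunit₁ z hz₁ (by rw [hρz₁]; exact one_ne_zero)
  have hzi₂ : z⁻¹ ∈ G₂ := hunit₂ z hz₂ (by rw [hρz₂]; exact one_ne_zero)
  have hziOv : z⁻¹ ∈ d.Ov := hG _ hzi₁ hzi₂
  have hτzOv : t2gsF 𝔓 H σ N z ∈ d.Ov := hτOv σ z hzOv
  have hτz1 : d.res ⟨t2gsF 𝔓 H σ N z, hτzOv⟩ = 1 := by rw [hτres σ z hzOv, hz1]
  -- `Φ z` is a Kummer function
  have hη0 : tbPhiF 𝔓 N H h ≠ 0 :=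
    fun h0 => hh0 (tbPhiF_injective 𝔓 N H (by rw [h0, map_zero]))
  obtain ⟨ηu, hηu⟩ : ∃ ηu : (↥(modularFunctionFieldBar N))ˣ,
      (ηu : ↥(modularFunctionFieldBar N)) = tbPhiF 𝔓 N H h := ⟨Units.mk0 _ hη0, rfl⟩
  obtain ⟨Z, hZ⟩ : ∃ Z : (↥(modularFunctionFieldBar N))ˣ,
      Z = tkrSig N ((σ : 𝔓.I) : GQ) y * (y * ηu ^ su.m)⁻¹ := ⟨_, rfl⟩
  have hΦz : tbPhiF 𝔓 N H z
      = ((Z : (↥(modularFunctionFieldBar N))ˣ) : ↥(modularFunctionFieldBar N)) := by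
    rw [← hz, map_div₀, map_mul, map_pow, tbPhiF_t2gsF, hfy, hZ, Units.val_mul,
      Units.val_inv_eq_inv_val, Units.val_mul, Units.val_pow_eq_pow_val, div_eq_mul_inv, hηu]
    rfl
  have hZW : Z ∈ tWsub Qb N su.m := by
    rw [hZ]
    exact (tWsub Qb N su.m).mul_mem (tkrSig_mem_tWsub N su.m _ hy)
      ((tWsub Qb N su.m).inv_mem ((tWsub Qb N su.m).mul_mem hy (tkr_pow_mem_tWsub N su.m ηu)))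
  have hΦτz : tbPhiF 𝔓 N H (t2gsF 𝔓 H σ N z)
      = ((tkrSig N ((σ : 𝔓.I) : GQ) Z : (↥(modularFunctionFieldBar N))ˣ) :
          ↥(modularFunctionFieldBar N)) := by
    rw [tbPhiF_t2gsF, hΦz]
    rfl
  have hdiv : ∀ v : Place Qb ↥(modularFunctionFieldBar N),
      (su.m : ℤ) ∣ v.ord (tbPhiF 𝔓 N H z) := by
    intro v
    rw [hΦz]
    exact hZW v
  have hdivτ : ∀ v : Place Qb ↥(modularFunctionFieldBar N),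
      (su.m : ℤ) ∣ v.ord (tbPhiF 𝔓 N H (t2gsF 𝔓 H σ N z)) := by
    intro v
    rw [hΦτz]
    exact tkrSig_mem_tWsub N su.m _ hZW v
  -- the core
  obtain ⟨g, hg⟩ := t2g_level 𝔓 N H su hX hn hc h1ne (t2gsF 𝔓 H σ N)
    (fun f hf => hτOv σ⁻¹ f hf) (fun f hf => hτres σ⁻¹ f hf)
    (fun f hf => t2gsF_isIntegral 𝔓 H σ⁻¹ N (hτx σ⁻¹) hf)
    hz0 hzOv hziOv hz1 hτzOv hτz1 hdiv hdivτ
  have hg0 : g ≠ 0 := by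
    rintro rfl
    rw [zero_pow su.m_pos.ne'] at hg
    have h2 : t2gsF 𝔓 H σ N z / z = 0 := tbPhiF_injective 𝔓 N H (by rw [← hg, map_zero])
    exact div_ne_zero ((map_ne_zero _).mpr hz0) hz0 h2
  obtain ⟨gu, hgu⟩ : ∃ gu : (↥(modularFunctionFieldBar N))ˣ,
      (gu : ↥(modularFunctionFieldBar N)) = g := ⟨Units.mk0 g hg0, rfl⟩
  have hgZ : gu ^ su.m = tkrSig N ((σ : 𝔓.I) : GQ) Z * Z⁻¹ := by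
    apply Units.ext
    rw [Units.val_pow_eq_pow_val, hgu, hg, map_div₀, hΦτz, hΦz, Units.val_mul,
      Units.val_inv_eq_inv_val, div_eq_mul_inv]
  exact ⟨gu * (tkrSig N ((σ : 𝔓.I) : GQ) ηu * ηu⁻¹),
    t2gf_group_identity (tkrSig N ((σ : 𝔓.I) : GQ)) y ηu gu Z su.m hZ hgZ⟩

end Fermat.Agent.T2
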