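/-
T2-G, concrete part (helper4), file 4: **the two Gauss rings of the Kronecker input**.
For `I : T2kInput L F' F k Ω E` (helper9's generic two-valuation base, `𝒪 = G ∩ w⁻¹ G`,
`res f = (ρ f, ρ (w f))`): the second Gauss ring `G₂ = w⁻¹ G` with its residue map `ρ ∘ w`, the
transport of the unit/normalisation properties from `G` to `G₂`, the link with `I.base`, and the
element `e ∈ 𝒪` with `res e = (1, 0)` from two elements with residues `(u, 0)`, `(0, v)`.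
-/
import Mathlib
import Fermat.Agent.Lib.T2.Inst.KronH
import Fermat.Agent.Lib.T2.Inst.KronSer

set_option autoImplicit false
set_option linter.unusedSectionVars false
set_option linter.style.haveILetI false

namespace Fermat.Agent.T2

namespace T2kInput

variable {L F' F k Ω : Type*} [Field L] [Field F'] [Field F] [Algebra L F'] [Algebra L F]
  [Algebra F' F] [IsScalarTower L F' F] [Field k] [Field Ω] [Algebra k Ω]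
  {E : IntermediateField k Ω} (I : T2kInput L F' F k Ω E)

/-- the second Gauss ring `w⁻¹ G` -/
def G₂ : Subring F := I.G.comap (I.w : F →+* F)

theorem mem_G₂ {f : F} : f ∈ I.G₂ ↔ I.w f ∈ I.G := Iff.rfl

/-- the residue map of the second Gauss ring, `f ↦ ρ (w f)` -/
def ρG₂ : ↥I.G₂ →+* Ω :=
  I.ρ.comp (((I.w : F →+* F).comp I.G₂.subtype).codRestrict I.G (fun f => f.2))

theorem ρG₂_apply (f : ↥I.G₂) : I.ρG₂ f = I.ρ ⟨I.w (f : F), f.2⟩ := rfl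

theorem mem_Ov_of_mem {f : F} (h1 : f ∈ I.G) (h2 : f ∈ I.G₂) : f ∈ I.Ov := ⟨h1, h2⟩

/-- the residue of `I.res` is `(1, 1)` as soon as both Gauss residues are `1` -/
theorem res_eq_one {f : F} (h1 : f ∈ I.G) (h2 : f ∈ I.G₂) (hρ1 : I.ρ ⟨f, h1⟩ = 1)
    (hρ2 : I.ρG₂ ⟨f, h2⟩ = 1) : I.res ⟨f, I.mem_Ov_of_mem h1 h2⟩ = 1 := by
  apply Prod.ext
  · apply Subtype.ext
    rw [I.res_fst]
    exact hρ1
  · apply Subtype.ext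
    rw [I.res_snd]
    exact hρ2

theorem algebraMap_mem_G₂ (a : ↥I.d'.A) : algebraMap L F (a : L) ∈ I.G₂ :=
  (I.algebraMap_mem_Ov a).2

theorem ρG₂_algebraMap (a : ↥I.d'.A) :
    I.ρG₂ ⟨algebraMap L F (a : L), I.algebraMap_mem_G₂ a⟩ = algebraMap k Ω (I.d'.resA a) :=
  I.ρ₂_algebraMap a

variable (hunit : ∀ (g : F) (hg : g ∈ I.G), I.ρ ⟨g, hg⟩ ≠ 0 → g⁻¹ ∈ I.G)
  (hnorm : ∀ f : F, f ≠ 0 → ∃ c : L, c ≠ 0 ∧ ∃ h : c • f ∈ I.G, I.ρ ⟨c • f, h⟩ ≠ 0)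

include hunit in
theorem inv_mem_G₂ (g : F) (hg : g ∈ I.G₂) (h0 : I.ρG₂ ⟨g, hg⟩ ≠ 0) : g⁻¹ ∈ I.G₂ := by
  rw [mem_G₂, map_inv₀]
  exact hunit _ hg h0

include hnorm in
theorem normalize_G₂ (f : F) (hf : f ≠ 0) :
    ∃ c : L, c ≠ 0 ∧ ∃ h : c • f ∈ I.G₂, I.ρG₂ ⟨c • f, h⟩ ≠ 0 := by
  obtain ⟨c, hc0, hmem, hρ⟩ := hnorm (I.w f) ((map_ne_zero _).mpr hf)
  have h1 : I.w (c • f) = c • I.w f := map_smul _ _ _
  have hmem' : c • f ∈ I.G₂ := by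
    rw [mem_G₂, h1]
    exact hmem
  refine ⟨c, hc0, hmem', ?_⟩
  rw [ρG₂_apply]
  intro h0
  apply hρ
  rw [← h0]
  congr 1
  exact Subtype.ext h1.symm

include hunit in
/-- **the idempotent lift**: from `f₁ ≡ (u, 0)`, `f₂ ≡ (0, v)` with `u, v ≠ 0` we get `e ≡ (1, 0)` -/
theorem exists_e (f₁ f₂ : F) (h₁ : f₁ ∈ I.G) (h₁' : f₁ ∈ I.G₂) (h₂ : f₂ ∈ I.G) (h₂' : f₂ ∈ I.G₂)
    (hu : I.ρ ⟨f₁, h₁⟩ ≠ 0) (h10 : I.ρG₂ ⟨f₁, h₁'⟩ = 0) (h20 : I.ρ ⟨f₂, h₂⟩ = 0)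
    (hv : I.ρG₂ ⟨f₂, h₂'⟩ ≠ 0) :
    ∃ (e : F) (he₁ : e ∈ I.G) (he₂ : e ∈ I.G₂), I.ρ ⟨e, he₁⟩ = 1 ∧ I.ρG₂ ⟨e, he₂⟩ = 0 := by
  have hs₁ : f₁ + f₂ ∈ I.G := I.G.add_mem h₁ h₂
  have hs₂ : f₁ + f₂ ∈ I.G₂ := I.G₂.add_mem h₁' h₂'
  have hρs₁ : I.ρ ⟨f₁ + f₂, hs₁⟩ = I.ρ ⟨f₁, h₁⟩ := by
    have : (⟨f₁ + f₂, hs₁⟩ : ↥I.G) = ⟨f₁, h₁⟩ + ⟨f₂, h₂⟩ := rfl
    rw [this, map_add, h20, add_zero]
  have hρs₂ : I.ρG₂ ⟨f₁ + f₂, hs₂⟩ = I.ρG₂ ⟨f₂, h₂'⟩ := by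
    have : (⟨f₁ + f₂, hs₂⟩ : ↥I.G₂) = ⟨f₁, h₁'⟩ + ⟨f₂, h₂'⟩ := rfl
    rw [this, map_add, h10, zero_add]
  have hi₁ : (f₁ + f₂)⁻¹ ∈ I.G := hunit _ hs₁ (by rw [hρs₁]; exact hu)
  have hi₂ : (f₁ + f₂)⁻¹ ∈ I.G₂ := I.inv_mem_G₂ hunit _ hs₂ (by rw [hρs₂]; exact hv)
  have hs0 : f₁ + f₂ ≠ 0 := by
    intro h0
    apply hu
    rw [← hρs₁]
    have : (⟨f₁ + f₂, hs₁⟩ : ↥I.G) = 0 := Subtype.ext h0
    rw [this, map_zero]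
  refine ⟨f₁ * (f₁ + f₂)⁻¹, I.G.mul_mem h₁ hi₁, I.G₂.mul_mem h₁' hi₂, ?_, ?_⟩
  · have h1 : (⟨f₁ * (f₁ + f₂)⁻¹, I.G.mul_mem h₁ hi₁⟩ : ↥I.G) * ⟨f₁ + f₂, hs₁⟩ = ⟨f₁, h₁⟩ := by
      apply Subtype.ext
      show f₁ * (f₁ + f₂)⁻¹ * (f₁ + f₂) = f₁
      rw [mul_assoc, inv_mul_cancel₀ hs0, mul_one]
    have h2 := congrArg I.ρ h1
    rw [map_mul, hρs₁] at h2
    exact mul_right_cancel₀ hu (by rw [h2, one_mul])
  · have h1 : (⟨f₁ * (f₁ + f₂)⁻¹, I.G₂.mul_mem h₁' hi₂⟩ : ↥I.G₂)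
        = ⟨f₁, h₁'⟩ * ⟨(f₁ + f₂)⁻¹, hi₂⟩ := rfl
    rw [h1, map_mul, h10, zero_mul]

end T2kInput

/-! ### The concrete Kronecker input `t2iInput` -/

section Concrete

open HahnSeries ModularCurve Fermat.Agent.T1 IntermediateField

attribute [local instance] t2iAlgebra t2i_isScalarTower

variable {L : Type*} [Field L] [Algebra ℚ L] (O : ValuationSubring L) {k : Type*} [Field k]
  (π : ↥O →+* k) [IsDiscreteValuationRing ↥O] (hπ : Function.Surjective π) [IsAlgClosed k]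
  {N' q : ℕ} [NeZero N'] [hq : Fact q.Prime] [CharP k q] (hN' : (N' : k) ≠ 0)
  (W : T2iAL L N' q) (Fr : T2iFrob k N' q)

theorem t2gp_G : (t2iInput O π hπ hN' W Fr).G = (taOv O π hπ (N' * q)).toSubring := rfl

theorem t2gp_w : (t2iInput O π hπ hN' W Fr).w = W.w := rfl

theorem t2gp_ρ_apply (g : ↥(TaF L (N' * q))) (hg : g ∈ (t2iInput O π hπ hN' W Fr).G) :
    (t2iInput O π hπ hN' W Fr).ρ ⟨g, hg⟩ = taResN O π hπ (N' * q) ⟨g, hg⟩ := rfl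

/-- elements of the Gauss ring with non-zero residue are units -/
theorem t2gp_unit (g : ↥(TaF L (N' * q))) (hg : g ∈ (t2iInput O π hπ hN' W Fr).G)
    (h0 : (t2iInput O π hπ hN' W Fr).ρ ⟨g, hg⟩ ≠ 0) : g⁻¹ ∈ (t2iInput O π hπ hN' W Fr).G :=
  inv_mem_taOv_of_taResN_ne_zero O π hπ (N' * q) ⟨g, hg⟩ h0

/-- every non-zero function can be scaled to a Gauss unit -/
theorem t2gp_norm (f : ↥(TaF L (N' * q))) (hf0 : f ≠ 0) :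
    ∃ c : L, c ≠ 0 ∧ ∃ h : c • f ∈ (t2iInput O π hπ hN' W Fr).G,
      (t2iInput O π hπ hN' W Fr).ρ ⟨c • f, h⟩ ≠ 0 := by
  obtain ⟨ϖ, hϖ⟩ := IsDiscreteValuationRing.exists_irreducible ↥O
  have hϖ0 : ((ϖ : ↥O) : L) ≠ 0 := ta_coe_unif_ne_zero hϖ
  obtain ⟨n, u, hu, hui, hfu⟩ := ta_exists_zpow_mul_unitN O π hπ (N' * q) hϖ f hf0
  have hcu : (((ϖ : ↥O) : L) ^ (-n)) • f = u := by
    rw [Algebra.smul_def, hfu, ← mul_assoc, map_zpow₀, ← zpow_add₀, neg_add_cancel, zpow_zero,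
      one_mul]
    intro h0
    rw [map_eq_zero] at h0
    exact hϖ0 h0
  refine ⟨((ϖ : ↥O) : L) ^ (-n), zpow_ne_zero _ hϖ0, hcu ▸ hu, fun h0 => ?_⟩
  have h1 : taResN O π hπ (N' * q) ⟨u, hu⟩ = 0 := by
    rw [← h0]
    show taResN O π hπ (N' * q) ⟨u, hu⟩ = taResN O π hπ (N' * q) ⟨_, _⟩
    congr 1
    exact Subtype.ext hcu.symm
  have hu0 : u ≠ 0 := by
    rintro rfl
    rw [mul_zero] at hfu
    exact hf0 hfu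
  have h2 : (⟨u, hu⟩ : ↥(taOv O π hπ (N' * q))) * ⟨u⁻¹, hui⟩ = 1 :=
    Subtype.ext (mul_inv_cancel₀ hu0)
  have h3 := congrArg (taResN O π hπ (N' * q)) h2
  rw [map_mul, h1, zero_mul, map_one] at h3
  exact zero_ne_one h3

theorem t2gp_w_J : W.w (taJ (L := L) (N' * q)) = t2iY L N' q := by
  rw [← W.w_Y, W.w_w]

/-- the residues of `J` and `Y` -/
theorem t2gp_res_J : taResN O π hπ (N' * q) ⟨taJ (N' * q), taJ_mem_taOv O π hπ (N' * q)⟩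
    = jqModC k := taResN_taJ O π hπ (N' * q)

theorem t2gp_Y_mem : t2iY L N' q ∈ taOv O π hπ (N' * q) :=
  taGen_mem_taOv O π hπ (N' * q) (dvd_mul_left q N')

theorem t2gp_res_Y : taResN O π hπ (N' * q) ⟨t2iY L N' q, t2gp_Y_mem O π hπ⟩
    = jqModC k ^ q := by
  rw [t2i_jq_pow]
  exact taResN_taGen O π hπ (N' * q) (dvd_mul_left q N')

/-- **the idempotent lift** for the concrete input: `e ∈ 𝒪` with `res e = (1, 0)` -/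
theorem t2gp_exists_e :
    ∃ (e : ↥(TaF L (N' * q))) (he₁ : e ∈ (t2iInput O π hπ hN' W Fr).G)
      (he₂ : e ∈ (t2iInput O π hπ hN' W Fr).G₂),
      (t2iInput O π hπ hN' W Fr).ρ ⟨e, he₁⟩ = 1 ∧ (t2iInput O π hπ hN' W Fr).ρG₂ ⟨e, he₂⟩ = 0 := by
  set J : ↥(TaF L (N' * q)) := taJ (N' * q) with hJ
  set Y : ↥(TaF L (N' * q)) := t2iY L N' q with hY
  have hJm : J ∈ taOv O π hπ (N' * q) := taJ_mem_taOv O π hπ (N' * q)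
  have hYm : Y ∈ taOv O π hπ (N' * q) := t2gp_Y_mem O π hπ
  have hwJ : W.w J = Y := t2gp_w_J W
  have hwY : W.w Y = J := W.w_Y
  have hρJ : taResN O π hπ (N' * q) ⟨J, hJm⟩ = jqModC k := t2gp_res_J O π hπ
  have hρY : taResN O π hπ (N' * q) ⟨Y, hYm⟩ = jqModC k ^ q := t2gp_res_Y O π hπ
  -- the two elements
  have h₁ : Y ^ q - J ∈ taOv O π hπ (N' * q) := sub_mem (pow_mem hYm q) hJm
  have h₂ : Y - J ^ q ∈ taOv O π hπ (N' * q) := sub_mem hYm (pow_mem hJm q)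
  have hw₁ : W.w (Y ^ q - J) = J ^ q - Y := by rw [map_sub, map_pow, hwY, hwJ]
  have hw₂ : W.w (Y - J ^ q) = J - Y ^ q := by rw [map_sub, map_pow, hwY, hwJ]
  have h₁' : W.w (Y ^ q - J) ∈ taOv O π hπ (N' * q) := by
    rw [hw₁]; exact sub_mem (pow_mem hJm q) hYm
  have h₂' : W.w (Y - J ^ q) ∈ taOv O π hπ (N' * q) := by
    rw [hw₂]; exact sub_mem hJm (pow_mem hYm q)
  have e₁ : taResN O π hπ (N' * q) ⟨Y ^ q - J, h₁⟩ = jqModC k ^ (q ^ 2) - jqModC k := by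
    have : (⟨Y ^ q - J, h₁⟩ : ↥(taOv O π hπ (N' * q))) = ⟨Y, hYm⟩ ^ q - ⟨J, hJm⟩ := rfl
    rw [this, map_sub, map_pow, hρY, hρJ, ← pow_mul, pow_two]
  have e₂ : taResN O π hπ (N' * q) ⟨Y - J ^ q, h₂⟩ = 0 := by
    have : (⟨Y - J ^ q, h₂⟩ : ↥(taOv O π hπ (N' * q))) = ⟨Y, hYm⟩ - ⟨J, hJm⟩ ^ q := rfl
    rw [this, map_sub, map_pow, hρY, hρJ, sub_self]
  have e₁' : taResN O π hπ (N' * q) ⟨W.w (Y ^ q - J), h₁'⟩ = 0 := by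
    have : (⟨W.w (Y ^ q - J), h₁'⟩ : ↥(taOv O π hπ (N' * q))) = ⟨J, hJm⟩ ^ q - ⟨Y, hYm⟩ :=
      Subtype.ext hw₁
    rw [this, map_sub, map_pow, hρY, hρJ, sub_self]
  have e₂' : taResN O π hπ (N' * q) ⟨W.w (Y - J ^ q), h₂'⟩
      = -(jqModC k ^ (q ^ 2) - jqModC k) := by
    have : (⟨W.w (Y - J ^ q), h₂'⟩ : ↥(taOv O π hπ (N' * q))) = ⟨J, hJm⟩ - ⟨Y, hYm⟩ ^ q :=
      Subtype.ext hw₂
    rw [this, map_sub, map_pow, hρY, hρJ, ← pow_mul, pow_two, neg_sub]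
  have hx : jqModC k ^ (q ^ 2) - jqModC k ≠ 0 := t2kr_xbar_ne_zero (k := k) q
  exact (t2iInput O π hπ hN' W Fr).exists_e (t2gp_unit O π hπ hN' W Fr) (Y ^ q - J) (Y - J ^ q)
    h₁ h₁' h₂ h₂' (by rw [t2gp_ρ_apply, e₁]; exact hx) e₁' e₂
    (by
      show taResN O π hπ (N' * q) ⟨W.w (Y - J ^ q), h₂'⟩ ≠ 0
      rw [e₂']
      exact neg_ne_zero.mpr hx)

end Concrete

end Fermat.Agent.T2
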