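/-
T2-G, concrete part (helper4), file 5: **the two-valuation base at the level `H` and the action of
inertia**.  `𝔓` a place of `ℚ̄` over `q = 𝔓.p`, `q ∤ N'`, `H ≤ 𝔓.I` normal of finite index:
`t2gpInput 𝔓 N' h H Fr` is helper9's Kronecker input for `(L, O, π) = (tbFix 𝔓 H, tbFixO 𝔓 H,
tbFixRes 𝔓 H)` and lead's Atkin–Lehner involution `t2wLev`; `t2gpBase` the two-valuation base.
The coefficientwise action `t2gsF` of the inertia group preserves both Gauss rings, commutes with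
their residue maps, hence preserves `𝒪` and commutes with `res`.
-/
import Mathlib
import Fermat.Agent.Lib.T2.Gal.Plug
import Fermat.Agent.Lib.T2.Gal.Sigma
import Fermat.Agent.Lib.T1.Inst.FromTa

set_option autoImplicit false
set_option linter.unusedSectionVars false
set_option linter.style.haveILetI false

namespace Fermat.Agent.T2

open ModularCurve HahnSeries Fermat.Agent.T1 Fermat.Agent.TW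

local notation "Qb" => AlgebraicClosure ℚ
local notation "GQ" => (AlgebraicClosure ℚ ≃ₐ[ℚ] AlgebraicClosure ℚ)

noncomputable section

/-! ### Instances -/

theorem t2gp_fact (𝔓 : FFPlace) : Fact 𝔓.p.Prime := ⟨𝔓.hp⟩

theorem t2gp_dvr (𝔓 : FFPlace) (H : Subgroup 𝔓.I) [H.FiniteIndex] :
    IsDiscreteValuationRing ↥(tbFixO 𝔓 H) := tbFixO_dvr 𝔓 H

theorem t2gp_isAlgClosed (𝔓 : FFPlace) : IsAlgClosed (IsLocalRing.ResidueField ↥𝔓.P) :=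
  tb_isAlgClosed_residueField 𝔓.P

theorem t2gp_charP (𝔓 : FFPlace) : CharP (IsLocalRing.ResidueField ↥𝔓.P) 𝔓.p :=
  tkr_charP_residue 𝔓.hp 𝔓.hP

attribute [local instance] t2gp_fact t2gp_dvr t2gp_isAlgClosed t2gp_charP
attribute [local instance] t2iAlgebra t2i_isScalarTower

variable (𝔓 : FFPlace) (N' : ℕ) [NeZero N'] (h : ¬ 𝔓.p ∣ N') (H : Subgroup 𝔓.I) [H.FiniteIndex]

include h in
theorem t2gp_natCast_ne_zero : ((N' : ℕ) : IsLocalRing.ResidueField ↥𝔓.P) ≠ 0 := fun h0 =>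
  h ((CharP.cast_eq_zero_iff (IsLocalRing.ResidueField ↥𝔓.P) 𝔓.p N').mp h0)

/-- the Atkin–Lehner data at the level `H` -/
def t2gpW : T2iAL ↥(tbFix 𝔓 H) N' 𝔓.p where
  w := t2wLev 𝔓 H N' 𝔓.p h
  w_alpha := t2wLev_alpha 𝔓 H N' 𝔓.p h
  w_w := t2wLev_t2wLev 𝔓 H N' 𝔓.p h

variable (Fr : T2iFrob (IsLocalRing.ResidueField ↥𝔓.P) N' 𝔓.p)

/-- the Kronecker input at the level `H` -/
def t2gpInput : T2kInput ↥(tbFix 𝔓 H) ↥(TaF ↥(tbFix 𝔓 H) N') ↥(TaF ↥(tbFix 𝔓 H) (N' * 𝔓.p))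
    (IsLocalRing.ResidueField ↥𝔓.P) (LaurentSeries (IsLocalRing.ResidueField ↥𝔓.P))
    (modularFunctionFieldFullC (IsLocalRing.ResidueField ↥𝔓.P) N') :=
  t2iInput (tbFixO 𝔓 H) (tbFixRes 𝔓 H) (tbFixRes_surjective 𝔓 H) (t2gp_natCast_ne_zero 𝔓 N' h)
    (t2gpW 𝔓 N' h H) Fr

/-- **the two-valuation base at the level `H`** -/
def t2gpBase : T2Base ↥(tbFix 𝔓 H) ↥(tbLevF 𝔓 (N' * 𝔓.p) H) (IsLocalRing.ResidueField ↥𝔓.P)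
    (↥(modularFunctionFieldFullC (IsLocalRing.ResidueField ↥𝔓.P) N') ×
      ↥(modularFunctionFieldFullC (IsLocalRing.ResidueField ↥𝔓.P) N')) :=
  t2iBase2 (tbFixO 𝔓 H) (tbFixRes 𝔓 H) (tbFixRes_surjective 𝔓 H) (t2gp_natCast_ne_zero 𝔓 N' h)
    (t2gpW 𝔓 N' h H) Fr

theorem t2gpBase_A : (t2gpBase 𝔓 N' h H Fr).A = tbFixO 𝔓 H := rfl

theorem t2gpBase_resA : (t2gpBase 𝔓 N' h H Fr).resA = tbFixRes 𝔓 H := rfl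

theorem t2gpBase_Ov : (t2gpBase 𝔓 N' h H Fr).Ov = (t2gpInput 𝔓 N' h H Fr).Ov := rfl

theorem t2gpBase_res (f : ↥(t2gpBase 𝔓 N' h H Fr).Ov) :
    (t2gpBase 𝔓 N' h H Fr).res f = (t2gpInput 𝔓 N' h H Fr).res f := rfl

/-! ### The action of inertia -/

variable [H.Normal] (ρ : 𝔓.I)

theorem t2gp_sigma_G (g : ↥(tbLevF 𝔓 (N' * 𝔓.p) H)) (hg : g ∈ (t2gpInput 𝔓 N' h H Fr).G) :
    t2gsF 𝔓 H ρ (N' * 𝔓.p) g ∈ (t2gpInput 𝔓 N' h H Fr).G :=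
  t2gsF_gauss 𝔓 H ρ hg

theorem t2gp_sigma_ρ (g : ↥(tbLevF 𝔓 (N' * 𝔓.p) H)) (hg : g ∈ (t2gpInput 𝔓 N' h H Fr).G) :
    (t2gpInput 𝔓 N' h H Fr).ρ ⟨t2gsF 𝔓 H ρ (N' * 𝔓.p) g, t2gp_sigma_G 𝔓 N' h H Fr ρ g hg⟩
      = (t2gpInput 𝔓 N' h H Fr).ρ ⟨g, hg⟩ := by
  show taRhoFun (tbFixO 𝔓 H) (tbFixRes 𝔓 H)
      ((t2gsF 𝔓 H ρ (N' * 𝔓.p) g : ↥(tbLevF 𝔓 (N' * 𝔓.p) H)) : LaurentSeries ↥(tbFix 𝔓 H))
    = taRhoFun (tbFixO 𝔓 H) (tbFixRes 𝔓 H) (g : LaurentSeries ↥(tbFix 𝔓 H))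
  rw [← tbf_rhoFun_eq, ← tbf_rhoFun_eq, coe_t2gsF]
  exact t2gsF_rho 𝔓 H ρ hg

theorem t2gp_sigma_w (g : ↥(tbLevF 𝔓 (N' * 𝔓.p) H)) :
    (t2gpInput 𝔓 N' h H Fr).w (t2gsF 𝔓 H ρ (N' * 𝔓.p) g)
      = t2gsF 𝔓 H ρ (N' * 𝔓.p) ((t2gpInput 𝔓 N' h H Fr).w g) :=
  t2gsF_t2wLev 𝔓 H ρ N' 𝔓.p h g

theorem t2gp_sigma_G₂ (g : ↥(tbLevF 𝔓 (N' * 𝔓.p) H)) (hg : g ∈ (t2gpInput 𝔓 N' h H Fr).G₂) :
    t2gsF 𝔓 H ρ (N' * 𝔓.p) g ∈ (t2gpInput 𝔓 N' h H Fr).G₂ := by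
  rw [T2kInput.mem_G₂, t2gp_sigma_w]
  exact t2gp_sigma_G 𝔓 N' h H Fr ρ _ hg

theorem t2gp_sigma_ρG₂ (g : ↥(tbLevF 𝔓 (N' * 𝔓.p) H)) (hg : g ∈ (t2gpInput 𝔓 N' h H Fr).G₂) :
    (t2gpInput 𝔓 N' h H Fr).ρG₂ ⟨t2gsF 𝔓 H ρ (N' * 𝔓.p) g, t2gp_sigma_G₂ 𝔓 N' h H Fr ρ g hg⟩
      = (t2gpInput 𝔓 N' h H Fr).ρG₂ ⟨g, hg⟩ := by
  have h1 := t2gp_sigma_ρ 𝔓 N' h H Fr ρ ((t2gpInput 𝔓 N' h H Fr).w g) hg
  show (t2gpInput 𝔓 N' h H Fr).ρ ⟨(t2gpInput 𝔓 N' h H Fr).w (t2gsF 𝔓 H ρ (N' * 𝔓.p) g),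
      t2gp_sigma_G₂ 𝔓 N' h H Fr ρ g hg⟩
    = (t2gpInput 𝔓 N' h H Fr).ρ ⟨(t2gpInput 𝔓 N' h H Fr).w g, hg⟩
  rw [← h1]
  congr 1
  exact Subtype.ext (t2gp_sigma_w 𝔓 N' h H Fr ρ g)

theorem t2gp_sigma_Ov (f : ↥(tbLevF 𝔓 (N' * 𝔓.p) H)) (hf : f ∈ (t2gpBase 𝔓 N' h H Fr).Ov) :
    t2gsF 𝔓 H ρ (N' * 𝔓.p) f ∈ (t2gpBase 𝔓 N' h H Fr).Ov :=
  ⟨t2gp_sigma_G 𝔓 N' h H Fr ρ f hf.1, t2gp_sigma_G₂ 𝔓 N' h H Fr ρ f hf.2⟩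

theorem t2gp_sigma_res (f : ↥(tbLevF 𝔓 (N' * 𝔓.p) H)) (hf : f ∈ (t2gpBase 𝔓 N' h H Fr).Ov) :
    (t2gpBase 𝔓 N' h H Fr).res ⟨t2gsF 𝔓 H ρ (N' * 𝔓.p) f, t2gp_sigma_Ov 𝔓 N' h H Fr ρ f hf⟩
      = (t2gpBase 𝔓 N' h H Fr).res ⟨f, hf⟩ := by
  apply Prod.ext
  · apply Subtype.ext
    exact t2gp_sigma_ρ 𝔓 N' h H Fr ρ f hf.1
  · apply Subtype.ext
    exact t2gp_sigma_ρG₂ 𝔓 N' h H Fr ρ f hf.2

end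

end Fermat.Agent.T2
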