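/-
T2-G, concrete part (helper4), file 6: **from the setup at the levels `H` to `T2gUnipAt`**.
`t2gm_main`: for a `T2Setup` on the two-valuation base `t2gpBase 𝔓 N' h H Fr` (with the
Riemann–Roch numbers of `F_K` and a chart fixed by inertia), every `y ∈ tWsub ℚ̄ (N' q) m` coming
from the level `H` satisfies `σ(σ y) · y = (σ y)² t ^ m`.
`t2gm_unipAt`: if such setups exist for all sufficiently small normal `H` of finite index, then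
`T2gUnipAt (N' q) m σ` for all `σ` in the inertia group.
-/
import Mathlib
import Fermat.Agent.Lib.T2.Gal.PlugH
import Fermat.Agent.Lib.T2.Gal.Final
import Fermat.Agent.Lib.T2.Inst.FrobE

set_option autoImplicit false
set_option linter.unusedSectionVars false
set_option linter.style.haveILetI false

namespace Fermat.Agent.T2

open ModularCurve Module AlgebraicCurve IntermediateField Fermat.Agent.Curve
  Fermat.Agent.T1 Fermat.Agent.TW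

local notation "Qb" => AlgebraicClosure ℚ
local notation "GQ" => (AlgebraicClosure ℚ ≃ₐ[ℚ] AlgebraicClosure ℚ)

attribute [local instance] t2gp_fact t2gp_dvr t2gp_isAlgClosed t2gp_charP
attribute [local instance] t2iAlgebra t2i_isScalarTower

set_option maxHeartbeats 8000000 in
/-- **the S34 core for a Kummer function coming from the level `H`**, for helper9's
two-valuation base -/
theorem t2gm_main (𝔓 : FFPlace) (N' : ℕ) [NeZero N'] (h : ¬ 𝔓.p ∣ N') (H : Subgroup 𝔓.I)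
    [H.FiniteIndex] [H.Normal] (Fr : T2iFrob (IsLocalRing.ResidueField ↥𝔓.P) N' 𝔓.p)
    {σ' : Type*} [Fintype σ'] [DecidableEq σ'] (su : T2Setup (t2gpBase 𝔓 N' h H Fr) σ')
    (hX : IsFunctionFieldGen Qb ↥(modularFunctionFieldBar (N' * 𝔓.p))
      (tbPhiF 𝔓 (N' * 𝔓.p) H su.x))
    (hn : (su.n : ℤ) = finrank ↥Qb⟮tbPhiF 𝔓 (N' * 𝔓.p) H su.x⟯
      ↥(modularFunctionFieldBar (N' * 𝔓.p)))
    (hc : su.c = 1 - CurveP.genusR Qb ↥(modularFunctionFieldBar (N' * 𝔓.p)))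
    (hτx : ∀ ρ : 𝔓.I, t2gsF 𝔓 H ρ (N' * 𝔓.p) su.x = su.x)
    (σ : 𝔓.I) {y : (↥(modularFunctionFieldBar (N' * 𝔓.p)))ˣ}
    (hy : y ∈ tWsub Qb (N' * 𝔓.p) su.m) (fy : ↥(tbLevF 𝔓 (N' * 𝔓.p) H))
    (hfy : tbPhiF 𝔓 (N' * 𝔓.p) H fy = (y : ↥(modularFunctionFieldBar (N' * 𝔓.p)))) :
    ∃ t : (↥(modularFunctionFieldBar (N' * 𝔓.p)))ˣ,
      tkrSig (N' * 𝔓.p) ((σ : 𝔓.I) : GQ) (tkrSig (N' * 𝔓.p) ((σ : 𝔓.I) : GQ) y) * y
        = tkrSig (N' * 𝔓.p) ((σ : 𝔓.I) : GQ) y ^ 2 * t ^ su.m := by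
  have hunit := t2gp_unit (tbFixO 𝔓 H) (tbFixRes 𝔓 H) (tbFixRes_surjective 𝔓 H)
    (t2gp_natCast_ne_zero 𝔓 N' h) (t2gpW 𝔓 N' h H) Fr
  have hnorm := t2gp_norm (tbFixO 𝔓 H) (tbFixRes 𝔓 H) (tbFixRes_surjective 𝔓 H)
    (t2gp_natCast_ne_zero 𝔓 N' h) (t2gpW 𝔓 N' h H) Fr
  obtain ⟨e, he₁, he₂, hρe₁, hρe₂⟩ := t2gp_exists_e (tbFixO 𝔓 H) (tbFixRes 𝔓 H)
    (tbFixRes_surjective 𝔓 H) (t2gp_natCast_ne_zero 𝔓 N' h) (t2gpW 𝔓 N' h H) Fr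
  exact t2gf_main 𝔓 (N' * 𝔓.p) H σ su hX hn hc one_ne_zero
    (fun ρ f hf => t2gp_sigma_Ov 𝔓 N' h H Fr ρ f hf)
    (fun ρ f hf => t2gp_sigma_res 𝔓 N' h H Fr ρ f hf) hτx
    (fun c hc => t2gsL_div_mem 𝔓 H σ c hc)
    (t2gpInput 𝔓 N' h H Fr).G (t2gpInput 𝔓 N' h H Fr).ρ
    (t2gpInput 𝔓 N' h H Fr).G₂ (t2gpInput 𝔓 N' h H Fr).ρG₂
    (fun a => ((t2gpInput 𝔓 N' h H Fr).algebraMap_mem_Ov a).1)
    (fun a => (t2gpInput 𝔓 N' h H Fr).ρ_algebraMap a _)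
    hunit hnorm
    (fun a => (t2gpInput 𝔓 N' h H Fr).algebraMap_mem_G₂ a)
    (fun a => (t2gpInput 𝔓 N' h H Fr).ρG₂_algebraMap a)
    ((t2gpInput 𝔓 N' h H Fr).inv_mem_G₂ hunit)
    ((t2gpInput 𝔓 N' h H Fr).normalize_G₂ hnorm)
    (t2gp_sigma_G 𝔓 N' h H Fr σ) (t2gp_sigma_ρ 𝔓 N' h H Fr σ)
    (t2gp_sigma_G₂ 𝔓 N' h H Fr σ) (t2gp_sigma_ρG₂ 𝔓 N' h H Fr σ)
    e he₁ he₂ hρe₁ hρe₂
    (fun c => IsAlgClosed.exists_pow_nat_eq c su.m_pos)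
    (fun f h1 h2 => ⟨h1, h2⟩)
    (fun f h1 h2 hρ1 hρ2 => (t2gpInput 𝔓 N' h H Fr).res_eq_one h1 h2 hρ1 hρ2)
    hy fy hfy

/-- the Frobenius data of the residue field: `Φ = qExpand q` on `E` (helper5) and the Kronecker
independence (helper2) -/
noncomputable def t2gmFrob (𝔓 : FFPlace) (N' : ℕ) [NeZero N'] :
    T2iFrob (IsLocalRing.ResidueField ↥𝔓.P) N' 𝔓.p where
  Φ := (t2fePhi (IsLocalRing.ResidueField ↥𝔓.P) 𝔓.p N' :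
    ↥(modularFunctionFieldFullC (IsLocalRing.ResidueField ↥𝔓.P) N') →+*
      ↥(modularFunctionFieldFullC (IsLocalRing.ResidueField ↥𝔓.P) N'))
  coe_Φ := fun f => coe_t2fePhi (IsLocalRing.ResidueField ↥𝔓.P) 𝔓.p N' f
  kron := fun b h1 h2 => t2kr_kron 𝔓.p b h1 h2

/-- **the interface with T2-C**: for all sufficiently small normal subgroups `H` of finite index of
the inertia group there is a `T2Setup` on the two-valuation base at the level `H`, with exponent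
`m`, the Riemann–Roch numbers of `F_K`, and a chart fixed by inertia -/
def T2gSetups (𝔓 : FFPlace) (N' : ℕ) [NeZero N'] (h : ¬ 𝔓.p ∣ N') (m : ℕ) : Prop :=
  ∃ H₁ : Subgroup 𝔓.I, H₁.FiniteIndex ∧
    ∀ (H : Subgroup 𝔓.I) [H.FiniteIndex] [H.Normal], H ≤ H₁ →
      ∃ (σ' : Type) (_ : Fintype σ') (su : T2Setup (t2gpBase 𝔓 N' h H (t2gmFrob 𝔓 N')) σ'),
        su.m = m ∧
        IsFunctionFieldGen Qb ↥(modularFunctionFieldBar (N' * 𝔓.p))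
          (tbPhiF 𝔓 (N' * 𝔓.p) H su.x) ∧
        (su.n : ℤ) = finrank ↥Qb⟮tbPhiF 𝔓 (N' * 𝔓.p) H su.x⟯
          ↥(modularFunctionFieldBar (N' * 𝔓.p)) ∧
        su.c = 1 - CurveP.genusR Qb ↥(modularFunctionFieldBar (N' * 𝔓.p)) ∧
        ∀ ρ : 𝔓.I, t2gsF 𝔓 H ρ (N' * 𝔓.p) su.x = su.x

/-- **`(σ - 1)² = 0` at the level `N' q`** from the setups at the levels `H` -/
theorem t2gm_unipAt (𝔓 : FFPlace) (N' : ℕ) [NeZero N'] (h : ¬ 𝔓.p ∣ N') (m : ℕ)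
    (hS : T2gSetups 𝔓 N' h m) (σ : GQ) (hσ : σ ∈ 𝔓.P.inertiaSubgroupIn ℚ) :
    T2gUnipAt (N' * 𝔓.p) m σ := by
  classical
  intro y hy
  obtain ⟨H₁, hH₁, hall⟩ := hS
  haveI := hH₁
  obtain ⟨H, hHfin, hHnorm, hHle, hT⟩ := t2gs_exists_level 𝔓 (N' * 𝔓.p) H₁
    {(y : ↥(modularFunctionFieldBar (N' * 𝔓.p)))}
  haveI := hHfin
  haveI := hHnorm
  obtain ⟨fy, hfy⟩ := hT _ (Finset.mem_singleton_self _)
  obtain ⟨σ', hσ', su, hm, hX, hn, hc, hτx⟩ := hall H hHle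
  letI := hσ'
  subst hm
  exact t2gm_main 𝔓 N' h H (t2gmFrob 𝔓 N') su hX hn hc hτx ⟨σ, hσ⟩ hy fy hfy

/-- **the good levels**: `T2gGood` from the interface with T2-C -/
theorem t2gm_good
    (hS : ∀ (𝔓 : FFPlace) (N' : ℕ) [NeZero N'] (h : ¬ 𝔓.p ∣ N'), (4 ∣ N' ∨ 9 ∣ N') →
      ∀ m : ℕ, Nat.Coprime m 𝔓.p → T2gSetups 𝔓 N' h m) : T2gGood := by
  intro q hq N' _ hqN' h49 p hp hpq A hA σ hσ k
  set 𝔓 : FFPlace := ⟨A, q, hq, hA⟩ with h𝔓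
  have hcop : Nat.Coprime (p ^ k) 𝔓.p :=
    Nat.Coprime.pow_left k ((Nat.coprime_primes hp hq).mpr hpq)
  have h1 := t2gm_unipAt 𝔓 N' hqN' (p ^ k) (hS 𝔓 N' hqN' h49 (p ^ k) hcop) σ hσ
  haveI : NeZero (q * N') := ⟨Nat.mul_ne_zero hq.ne_zero (NeZero.ne N')⟩
  haveI : NeZero (N' * q) := ⟨Nat.mul_ne_zero (NeZero.ne N') hq.ne_zero⟩
  exact t2gl_unipAt_congr (Nat.mul_comm N' q) h1

/-- **S34 from the interface with T2-C** -/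
theorem t2gm_unip
    (hS : ∀ (𝔓 : FFPlace) (N' : ℕ) [NeZero N'] (h : ¬ 𝔓.p ∣ N'), (4 ∣ N' ∨ 9 ∣ N') →
      ∀ m : ℕ, Nat.Coprime m 𝔓.p → T2gSetups 𝔓 N' h m) : T2zUnip :=
  t2gl_unip_of_good (t2gm_good hS)

end Fermat.Agent.T2
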