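/-
T2-G, concrete part (helper4), file 7: **adapter to the export of T2-C** (helper9). The base of
`Main.lean` is `t2iBase2Fix`; inertia fixes the symmetric chart `x · w_q x`; `t2ga_setups`:
the setups of T2-C on `t2iBase2Fix 𝔓 H N' h` with the chart `t2gaX` give `T2gSetups`.
-/
import Mathlib
import Fermat.Agent.Lib.T2.Gal.Main
import Fermat.Agent.Lib.T2.Inst.LevelH
import Fermat.Agent.Lib.T2.Inst.DegreeAL

set_option autoImplicit false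
set_option linter.unusedSectionVars false
set_option linter.style.haveILetI false

namespace Fermat.Agent.T2

open ModularCurve Module AlgebraicCurve IntermediateField Fermat.Agent.Curve
  Fermat.Agent.T1 Fermat.Agent.TW

local notation "Qb" => AlgebraicClosure ℚ
local notation "GQ" => (AlgebraicClosure ℚ ≃ₐ[ℚ] AlgebraicClosure ℚ)

attribute [local instance] t2i_dvr t2i_isAlgClosed t2i_charP t2i_fact

/-- the base of `Main.lean` is helper9's `t2iBase2Fix` -/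
theorem t2ga_base_eq (𝔓 : FFPlace) (H : Subgroup 𝔓.I) [H.FiniteIndex] (N' : ℕ) [NeZero N']
    (h : ¬ 𝔓.p ∣ N') : t2gpBase 𝔓 N' h H (t2gmFrob 𝔓 N') = t2iBase2Fix 𝔓 H N' h := rfl

/-- inertia fixes `j` at the level `H` -/
theorem t2gsF_tbLevJ (𝔓 : FFPlace) (H : Subgroup 𝔓.I) [H.Normal] (σ : 𝔓.I) (N : ℕ) [NeZero N] :
    t2gsF 𝔓 H σ N (tbLevJ 𝔓 N H) = tbLevJ 𝔓 N H := by
  apply Subtype.ext
  rw [coe_t2gsF]
  exact coeffMap_jqModC _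

/-- the symmetric chart `x · w_q x`, `x = j ^ Q - j`, at the level `H` -/
noncomputable def t2gaX (𝔓 : FFPlace) (H : Subgroup 𝔓.I) (N' : ℕ) [NeZero N'] (h : ¬ 𝔓.p ∣ N') (Q : ℕ) :
    ↥(tbLevF 𝔓 (N' * 𝔓.p) H) :=
  (tbLevJ 𝔓 (N' * 𝔓.p) H ^ Q - tbLevJ 𝔓 (N' * 𝔓.p) H) *
    t2wLev 𝔓 H N' 𝔓.p h (tbLevJ 𝔓 (N' * 𝔓.p) H ^ Q - tbLevJ 𝔓 (N' * 𝔓.p) H)

/-- inertia fixes the symmetric chart -/
theorem t2gsF_t2gaX (𝔓 : FFPlace) (H : Subgroup 𝔓.I) [H.Normal] (σ : 𝔓.I) (N' : ℕ) [NeZero N']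
    (h : ¬ 𝔓.p ∣ N') (Q : ℕ) :
    t2gsF 𝔓 H σ (N' * 𝔓.p) (t2gaX 𝔓 H N' h Q) = t2gaX 𝔓 H N' h Q := by
  unfold t2gaX
  rw [map_mul, ← t2gsF_t2wLev, map_sub, map_pow, t2gsF_tbLevJ]

/-- **the adapter**: helper9's export (a `T2Setup` on `t2iBase2Fix 𝔓 H N' h` with the symmetric
chart and the Riemann–Roch numbers, for all small normal `H`) gives `T2gSetups` -/
theorem t2ga_setups (𝔓 : FFPlace) (N' : ℕ) [NeZero N'] (h : ¬ 𝔓.p ∣ N') (m : ℕ) {Q : ℕ}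
    (hQ : 2 ≤ Q) (H₁ : Subgroup 𝔓.I) [H₁.FiniteIndex]
    (hE : ∀ (H : Subgroup 𝔓.I) [H.FiniteIndex] [H.Normal], H ≤ H₁ →
      ∃ (n : ℕ) (su : T2Setup (t2iBase2Fix 𝔓 H N' h) (Fin n)),
        su.m = m ∧ su.x = t2gaX 𝔓 H N' h Q ∧
        (su.n : ℤ) = finrank ↥Qb⟮tbPhiF 𝔓 (N' * 𝔓.p) H su.x⟯
          ↥(modularFunctionFieldBar (N' * 𝔓.p)) ∧
        su.c = 1 - CurveP.genusR Qb ↥(modularFunctionFieldBar (N' * 𝔓.p))) :
    T2gSetups 𝔓 N' h m := by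
  refine ⟨H₁, inferInstance, ?_⟩
  intro H _ _ hH
  obtain ⟨n, su, hm, hx, hn, hc⟩ := hE H hH
  refine ⟨Fin n, inferInstance, su, hm, ?_, hn, hc, ?_⟩
  · rw [hx]
    unfold t2gaX
    rw [t2dg_tbPhiF_chart N' 𝔓.p h hQ]
    exact t2dg_isFunctionFieldGen_chart_al N' 𝔓.p h hQ
  · intro ρ
    rw [hx]
    exact t2gsF_t2gaX 𝔓 H ρ N' h Q

/-- **the export of T2-C**, as a proposition: for every `𝔓`, every `N'` prime to `𝔓.p` and
divisible by `4` or `9`, every `m` prime to `𝔓.p`, and every sufficiently small normal subgroup `H`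
of finite index of the inertia group, a `T2Setup` on `t2iBase2Fix 𝔓 H N' h` with exponent `m`, the
symmetric chart and the Riemann–Roch numbers of `F_K` -/
def T2gExport : Prop :=
  ∀ (𝔓 : FFPlace) (N' : ℕ) [NeZero N'] (h : ¬ 𝔓.p ∣ N'), (4 ∣ N' ∨ 9 ∣ N') →
    ∀ m : ℕ, Nat.Coprime m 𝔓.p →
      ∃ Q : ℕ, 2 ≤ Q ∧ ∃ H₁ : Subgroup 𝔓.I, H₁.FiniteIndex ∧
        ∀ (H : Subgroup 𝔓.I) [H.FiniteIndex] [H.Normal], H ≤ H₁ →
          ∃ (n : ℕ) (su : T2Setup (t2iBase2Fix 𝔓 H N' h) (Fin n)),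
            su.m = m ∧ su.x = t2gaX 𝔓 H N' h Q ∧
            (su.n : ℤ) = finrank ↥Qb⟮tbPhiF 𝔓 (N' * 𝔓.p) H su.x⟯
              ↥(modularFunctionFieldBar (N' * 𝔓.p)) ∧
            su.c = 1 - CurveP.genusR Qb ↥(modularFunctionFieldBar (N' * 𝔓.p))

/-- **S34 (in the shape `T2zUnip`) from the export of T2-C** -/
theorem t2ga_unip (hE : T2gExport) : T2zUnip := by
  refine t2gm_unip ?_
  intro 𝔓 N' _ h h49 m hm
  obtain ⟨Q, hQ, H₁, hH₁, hall⟩ := hE 𝔓 N' h h49 m hm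
  haveI := hH₁
  exact t2ga_setups 𝔓 N' h m hQ H₁ hall

end Fermat.Agent.T2
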